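import Fermat.Agent.DedekindZeroFree.Gamma

/-!
# Gamma on vertical lines, without Stirling's formula

Upper bounds for `Γ` and `1 / Γ` uniform in the half plane, the decay on the lines through the
half integers, and the growth of a ratio of two values with the same imaginary part.
-/

set_option autoImplicit false

noncomputable section

open Complex MeasureTheory Set
open scoped Real

namespace FA.DegreeGap

theorem norm_sin_le (w : ℂ) : ‖Complex.sin w‖ ≤ Real.exp |w.im| := by
  have h1 : ‖cexp (-w * I)‖ ≤ Real.exp |w.im| := by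
    rw [Complex.norm_exp]
    exact Real.exp_le_exp.2 (by simpa using le_abs_self w.im)
  have h2 : ‖cexp (w * I)‖ ≤ Real.exp |w.im| := by
    rw [Complex.norm_exp]
    exact Real.exp_le_exp.2 (by simpa using neg_le_abs w.im)
  rw [Complex.sin, norm_div, norm_mul, norm_I, mul_one, Complex.norm_ofNat]
  linarith [norm_sub_le (cexp (-w * I)) (cexp (w * I))]

theorem Gamma_le_of_le {x : ℝ} : ∀ N : ℕ, 1 / 2 ≤ x → x ≤ 3 / 2 + N →
    Real.Gamma x ≤ 2 * (x + 1) ^ x
  | 0, h1, h2 => by
    have h3 : Real.Gamma x ≤ max (Real.Gamma (1 / 2)) (Real.Gamma (3 / 2)) :=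
      Real.convexOn_Gamma.le_max_of_mem_Icc (Set.mem_Ioi.2 (by norm_num))
        (Set.mem_Ioi.2 (by norm_num)) ⟨h1, by simpa using h2⟩
    have h4 : Real.sqrt π ≤ 2 := by
      rw [Real.sqrt_le_left zero_le_two]
      linarith [Real.pi_le_four]
    have h5 : Real.Gamma (3 / 2) = 1 / 2 * Real.sqrt π := by
      rw [show (3 / 2 : ℝ) = 1 / 2 + 1 by norm_num, Real.Gamma_add_one (by norm_num),
        Real.Gamma_one_half_eq]
    rw [h5, Real.Gamma_one_half_eq] at h3
    have h6 : max (Real.sqrt π) (1 / 2 * Real.sqrt π) ≤ 2 :=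
      max_le h4 (by linarith [Real.sqrt_nonneg π])
    have h7 : 1 ≤ (x + 1) ^ x := Real.one_le_rpow (by linarith) (by linarith)
    linarith
  | N + 1, h1, h2 => by
    rcases le_or_gt x (3 / 2) with h | h
    · exact Gamma_le_of_le 0 h1 (by simpa using h)
    push_cast at h2
    have ih := Gamma_le_of_le (x := x - 1) N (by linarith) (by linarith)
    calc Real.Gamma x = (x - 1) * Real.Gamma (x - 1) := by
          rw [← Real.Gamma_add_one (by linarith : x - 1 ≠ 0), sub_add_cancel]
      _ ≤ (x + 1) * (2 * (x + 1) ^ (x - 1)) := by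
          refine mul_le_mul (by linarith) (ih.trans ?_)
            (Real.Gamma_pos_of_pos (by linarith)).le (by linarith)
          rw [sub_add_cancel]
          exact mul_le_mul_of_nonneg_left
            (Real.rpow_le_rpow (by linarith) (by linarith) (by linarith)) zero_le_two
      _ = 2 * (x + 1) ^ x := by
          rw [Real.rpow_sub_one (by linarith : x + 1 ≠ 0)]
          field_simp

theorem Gamma_le_rpow {x : ℝ} (hx : 1 / 2 ≤ x) : Real.Gamma x ≤ 2 * (x + 1) ^ x :=
  Gamma_le_of_le ⌈x⌉₊ hx (by linarith [Nat.le_ceil x])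

theorem exists_Gamma_lower : ∃ c : ℝ, 0 < c ∧ ∀ x : ℝ, 1 / 2 ≤ x → c ≤ Real.Gamma x := by
  obtain ⟨y, hy, hmin⟩ := (isCompact_Icc (a := (1 / 2 : ℝ)) (b := 5 / 2)).exists_isMinOn
    (nonempty_Icc.2 (by norm_num)) (fun z hz => (Real.differentiableAt_Gamma fun m e => by
      rw [e] at hz; linarith [hz.1, Nat.cast_nonneg (α := ℝ) m]).continuousAt.continuousWithinAt)
  refine ⟨Real.Gamma y, Real.Gamma_pos_of_pos (by linarith [hy.1]), fun x hx => ?_⟩
  have key : ∀ N : ℕ, ∀ z : ℝ, 1 / 2 ≤ z → z ≤ 5 / 2 + N → Real.Gamma y ≤ Real.Gamma z := by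
    intro N
    induction N with
    | zero => exact fun z h1 h2 => hmin ⟨h1, by simpa using h2⟩
    | succ N ih =>
      intro z h1 h2
      push_cast at h2
      rcases le_or_gt z (5 / 2) with h | h
      · exact hmin ⟨h1, h⟩
      refine (ih (z - 1) (by linarith) (by linarith)).trans ?_
      calc Real.Gamma (z - 1) ≤ (z - 1) * Real.Gamma (z - 1) :=
            le_mul_of_one_le_left (Real.Gamma_pos_of_pos (by linarith)).le (by linarith)
        _ = Real.Gamma z := by
            rw [← Real.Gamma_add_one (by linarith : z - 1 ≠ 0), sub_add_cancel]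
  exact key ⌈x⌉₊ x hx (by linarith [Nat.le_ceil x])

/-- `|Γ|` grows along horizontal lines at least like `Γ` on the axis. -/
theorem norm_Gamma_mono {z : ℂ} (hz : 0 < z.re) {δ : ℝ} (hδ : 0 ≤ δ) :
    ‖Complex.Gamma z‖ * Real.Gamma (z.re + δ) ≤ ‖Complex.Gamma (z + δ)‖ * Real.Gamma z.re := by
  rcases eq_or_lt_of_le hδ with rfl | hδ
  · simp
  have hδ' : 0 < (δ : ℂ).re := by simpa using hδ
  have hB : ‖betaIntegral z δ‖ ≤ (betaIntegral z.re δ).re := by
    have e : betaIntegral z.re δ =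
        ((∫ x : ℝ in 0..1, x ^ (z.re - 1) * (1 - x) ^ (δ - 1) : ℝ) : ℂ) := by
      rw [betaIntegral, ← intervalIntegral.integral_ofReal]
      refine intervalIntegral.integral_congr fun x hx => ?_
      rw [Set.uIcc_of_le zero_le_one] at hx
      rw [ofReal_mul, ofReal_cpow hx.1, ofReal_cpow (sub_nonneg.2 hx.2)]
      simp
    rw [e, ofReal_re, betaIntegral]
    refine (intervalIntegral.norm_integral_le_integral_norm zero_le_one).trans (le_of_eq ?_)
    rw [intervalIntegral.integral_of_le zero_le_one, intervalIntegral.integral_of_le zero_le_one,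
      integral_Ioc_eq_integral_Ioo, integral_Ioc_eq_integral_Ioo]
    refine setIntegral_congr_fun measurableSet_Ioo fun x hx => ?_
    rw [norm_mul, norm_cpow_eq_rpow_re_of_pos hx.1, ← ofReal_one, ← ofReal_sub,
      norm_cpow_eq_rpow_re_of_pos (sub_pos.2 hx.2)]
    simp
  have h1 := Complex.Gamma_mul_Gamma_eq_betaIntegral hz hδ'
  have h2 := Complex.Gamma_mul_Gamma_eq_betaIntegral (s := (z.re : ℂ)) (by simpa using hz) hδ'
  rw [← ofReal_add, Complex.Gamma_ofReal, Complex.Gamma_ofReal, Complex.Gamma_ofReal,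
    ← ofReal_mul] at h2
  have h2' : Real.Gamma z.re * Real.Gamma δ =
      Real.Gamma (z.re + δ) * (betaIntegral z.re δ).re := by
    have h := congrArg Complex.re h2
    rwa [ofReal_re, re_ofReal_mul] at h
  have h1' : ‖Complex.Gamma z‖ * Real.Gamma δ =
      ‖Complex.Gamma (z + δ)‖ * ‖betaIntegral z δ‖ := by
    have h := congrArg norm h1
    rwa [norm_mul, norm_mul, Complex.Gamma_ofReal, Complex.norm_real,
      Real.norm_of_nonneg (Real.Gamma_pos_of_pos hδ).le] at h
  have hp := Real.Gamma_pos_of_pos (add_pos hz hδ)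
  refine le_of_mul_le_mul_right ?_ (Real.Gamma_pos_of_pos hδ)
  calc ‖Complex.Gamma z‖ * Real.Gamma (z.re + δ) * Real.Gamma δ
      = ‖Complex.Gamma (z + δ)‖ * ‖betaIntegral z δ‖ * Real.Gamma (z.re + δ) := by
        rw [← h1']; ring
    _ ≤ ‖Complex.Gamma (z + δ)‖ * (betaIntegral z.re δ).re * Real.Gamma (z.re + δ) := by gcongr
    _ = ‖Complex.Gamma (z + δ)‖ * Real.Gamma z.re * Real.Gamma δ := by
        rw [mul_assoc _ (Real.Gamma z.re), h2']; ring

theorem norm_Gamma_half_bounds (y : ℝ) :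
    Real.exp (-(π * |y| / 2)) ≤ ‖Complex.Gamma (1 / 2 + y * I)‖ ∧
      ‖Complex.Gamma (1 / 2 + y * I)‖ ≤ 3 * Real.exp (-(π * |y| / 2)) := by
  have h := DedekindZF.norm_sq_Gamma_half y
  set a := π * |y| with ha
  have ha0 : 0 ≤ a := by positivity
  have hc : Real.cosh (π * y) = (Real.exp a + Real.exp (-a)) / 2 := by
    rw [← Real.cosh_abs, abs_mul, abs_of_pos Real.pi_pos, ← ha, Real.cosh_eq]
  have he : Real.exp (-(a / 2)) ^ 2 * Real.exp a = 1 := by
    rw [sq, ← Real.exp_add, ← Real.exp_add, ← Real.exp_zero]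
    congr 1
    ring
  have h1 : Real.cosh (π * y) ≤ Real.exp a := by
    rw [hc]
    linarith [Real.exp_le_exp.2 (show -a ≤ a by linarith)]
  have h2 : Real.exp a / 2 ≤ Real.cosh (π * y) := by
    rw [hc]
    linarith [Real.exp_pos (-a)]
  have hcpos := Real.cosh_pos (π * y)
  refine ⟨pow_le_pow_iff_left₀ (Real.exp_nonneg _) (norm_nonneg _) two_ne_zero |>.1 ?_,
    pow_le_pow_iff_left₀ (norm_nonneg _) (by positivity) two_ne_zero |>.1 ?_⟩
  · rw [h, le_div_iff₀ hcpos]
    refine ((mul_le_mul_of_nonneg_left h1 (by positivity)).trans_eq he).trans ?_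
    linarith [Real.pi_gt_three]
  · rw [h, div_le_iff₀ hcpos, mul_pow]
    have h3 := mul_le_mul_of_nonneg_left h2 (sq_nonneg (Real.exp (-(a / 2))))
    rw [← mul_div_assoc, he] at h3
    nlinarith [Real.pi_le_four]

theorem norm_Gamma_ne_zero_of_im {z : ℂ} (hz : z.im ≠ 0) : ‖Complex.Gamma z‖ ≠ 0 :=
  norm_ne_zero_iff.2 (Complex.Gamma_ne_zero fun m e => hz (by simp [e]))

/-- `|1 / Γ|` everywhere. -/
theorem exists_norm_inv_Gamma_le : ∃ C : ℝ, 0 ≤ C ∧ ∀ z : ℂ, ‖(Complex.Gamma z)⁻¹‖ ≤
    C * (|z.re| + 2) ^ (max (1 - z.re) 0 + 1) * Real.exp (π * |z.im|) := by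
  obtain ⟨c, hc, hlow⟩ := exists_Gamma_lower
  refine ⟨max 2 (Real.Gamma (1 / 2) / c), le_max_of_le_left zero_le_two, fun z => ?_⟩
  have hbase : (1 : ℝ) ≤ |z.re| + 2 := by linarith [abs_nonneg z.re]
  have hpow : 1 ≤ (|z.re| + 2) ^ (max (1 - z.re) 0 + 1) :=
    Real.one_le_rpow hbase (by positivity)
  rcases le_or_gt z.re (1 / 2) with h | h
  · rcases eq_or_ne (Complex.Gamma z) 0 with h0 | h0
    · rw [h0, inv_zero, norm_zero]
      positivity
    have h1 : Complex.Gamma (1 - z) ≠ 0 :=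
      Gamma_ne_zero_of_re_pos (by simp; linarith)
    have e : (Complex.Gamma z)⁻¹ = Complex.Gamma (1 - z) * Complex.sin (π * z) / π := by
      have h2 := Complex.Gamma_mul_Gamma_one_sub z
      have hs : Complex.sin (π * z) ≠ 0 := fun hs => by
        rw [hs, div_zero] at h2
        exact mul_ne_zero h0 h1 h2
      have hπ : (π : ℂ) ≠ 0 := ofReal_ne_zero.2 Real.pi_ne_zero
      rw [eq_div_iff hs] at h2
      field_simp
      rw [mul_comm z (π : ℂ)]
      linear_combination -h2
    rw [e, norm_div, norm_mul, Complex.norm_real, Real.norm_of_nonneg Real.pi_pos.le]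
    refine (div_le_self (by positivity) (by linarith [Real.pi_gt_three])).trans ?_
    refine mul_le_mul ?_ ((norm_sin_le _).trans_eq ?_) (norm_nonneg _) (by positivity)
    · calc ‖Complex.Gamma (1 - z)‖ ≤ Real.Gamma (1 - z).re :=
            HeckeBS.norm_Gamma_le_re (by simp; linarith)
        _ ≤ 2 * (1 - z.re + 1) ^ (1 - z.re) := by
            rw [sub_re, one_re]
            exact Gamma_le_rpow (by linarith)
        _ ≤ 2 * (|z.re| + 2) ^ (max (1 - z.re) 0 + 1) := by
            refine mul_le_mul_of_nonneg_left ((Real.rpow_le_rpow (by linarith)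
              (by linarith [neg_le_abs z.re]) (by linarith)).trans
              (Real.rpow_le_rpow_of_exponent_le hbase ?_)) zero_le_two
            linarith [le_max_left (1 - z.re) 0]
        _ ≤ _ := mul_le_mul_of_nonneg_right (le_max_left _ _) (by positivity)
    · simp [abs_mul, abs_of_pos Real.pi_pos]
  · have hm := norm_Gamma_mono (z := (1 / 2 : ℂ) + z.im * I) (δ := z.re - 1 / 2)
      (by norm_num) (by linarith)
    rw [show (1 / 2 : ℂ) + z.im * I + ((z.re - 1 / 2 : ℝ) : ℂ) = z by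
        apply Complex.ext <;> norm_num,
      show ((1 / 2 : ℂ) + z.im * I).re = 1 / 2 by norm_num, add_sub_cancel] at hm
    have hg : 0 < Real.Gamma (1 / 2) := Real.Gamma_pos_of_pos (by norm_num)
    have h3 : Real.exp (-(π * |z.im| / 2)) * c ≤ ‖Complex.Gamma z‖ * Real.Gamma (1 / 2) :=
      (mul_le_mul (norm_Gamma_half_bounds z.im).1 (hlow _ h.le) hc.le (norm_nonneg _)).trans hm
    have hpos : 0 < ‖Complex.Gamma z‖ :=
      norm_pos_iff.2 (Gamma_ne_zero_of_re_pos (by linarith))
    calc ‖(Complex.Gamma z)⁻¹‖ ≤ Real.Gamma (1 / 2) / c * Real.exp (π * |z.im| / 2) := by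
          rw [norm_inv, inv_le_iff_one_le_mul₀' hpos]
          rw [Real.exp_neg] at h3
          field_simp at h3 ⊢
          linarith
      _ ≤ max 2 (Real.Gamma (1 / 2) / c) * (|z.re| + 2) ^ (max (1 - z.re) 0 + 1) *
          Real.exp (π * |z.im|) := by
          have hp : π * |z.im| / 2 ≤ π * |z.im| := by
            linarith [mul_nonneg Real.pi_pos.le (abs_nonneg z.im)]
          exact mul_le_mul ((le_max_right _ _).trans (le_mul_of_one_le_right
            (le_max_of_le_left zero_le_two) hpow)) (Real.exp_le_exp.2 hp) (Real.exp_nonneg _)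
            (by positivity)

/-- Decay on the lines `re z = N + 1/2`. -/
theorem exists_norm_Gamma_line (N : ℕ) : ∃ C : ℝ, 0 ≤ C ∧ ∀ y : ℝ,
    ‖Complex.Gamma (((1 / 2 : ℝ) + N : ℝ) + y * I)‖ ≤
      C * (1 + |y|) ^ N * Real.exp (-(π * |y| / 2)) := by
  induction N with
  | zero =>
    refine ⟨3, by norm_num, fun y => ?_⟩
    simpa using (norm_Gamma_half_bounds y).2
  | succ N ih =>
    obtain ⟨C, hC0, hC⟩ := ih
    refine ⟨((N : ℝ) + 1) * C, by positivity, fun y => ?_⟩
    set z : ℂ := (((1 / 2 : ℝ) + N : ℝ) : ℂ) + y * I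
    have hz : z ≠ 0 := fun e => by
      have h := congrArg Complex.re e
      simp [z] at h
      linarith [Nat.cast_nonneg (α := ℝ) N]
    rw [show ((((1 / 2 : ℝ) + (N + 1 : ℕ) : ℝ)) : ℂ) + y * I = z + 1 by
      simp only [z]; push_cast; ring, Complex.Gamma_add_one z hz, norm_mul, pow_succ]
    have h1 : ‖z‖ ≤ ((N : ℝ) + 1) * (1 + |y|) := by
      refine (norm_le_abs_re_add_abs_im z).trans ?_
      simp only [z, add_re, ofReal_re, mul_re, I_re, mul_zero, ofReal_im, I_im, mul_one, sub_zero,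
        add_zero, add_im, mul_im, zero_add]
      rw [abs_of_pos (by positivity)]
      nlinarith [abs_nonneg y, Nat.cast_nonneg (α := ℝ) N]
    refine (mul_le_mul h1 (hC y) (norm_nonneg _) (by positivity)).trans_eq ?_
    ring

/-- The ratio of two values of `Γ` grows. -/
theorem exists_Gamma_ratio_lower {A B : ℝ} (hA : 1 ≤ A) (hB : B ≤ 0) :
    ∃ c : ℝ, 0 < c ∧ ∀ y : ℝ, 1 ≤ |y| →
      c * |y| * ‖Complex.Gamma (B + y * I)‖ ≤ ‖Complex.Gamma (A + y * I)‖ := by
  set M := ⌊-B⌋₊ + 1 with hM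
  set x : ℝ := B + M with hx
  have hx0 : 0 < x := by
    simp only [hx, hM]
    push_cast
    linarith [Nat.lt_floor_add_one (-B)]
  have hx1 : x ≤ 1 := by
    simp only [hx, hM]
    push_cast
    linarith [Nat.floor_le (neg_nonneg.2 hB)]
  have hgx := Real.Gamma_pos_of_pos hx0
  refine ⟨Real.Gamma A / Real.Gamma x,
    div_pos (Real.Gamma_pos_of_pos (by linarith)) hgx, fun y hy => ?_⟩
  have hy0 : y ≠ 0 := fun e => by simp [e] at hy; linarith
  have hstep : ∀ n : ℕ, |y| ^ n * ‖Complex.Gamma (B + y * I)‖ ≤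
      ‖Complex.Gamma (((B + n : ℝ) : ℂ) + y * I)‖ := by
    intro n
    induction n with
    | zero => simp
    | succ n ih =>
      set z : ℂ := ((B + n : ℝ) : ℂ) + y * I
      have hz : z ≠ 0 := fun e => hy0 (by simpa [z] using congrArg Complex.im e)
      rw [show ((B + (n + 1 : ℕ) : ℝ) : ℂ) + y * I = z + 1 by simp only [z]; push_cast; ring,
        Complex.Gamma_add_one z hz, norm_mul, pow_succ']
      rw [mul_assoc]
      refine mul_le_mul ?_ ih (by positivity) (norm_nonneg _)
      simpa [z] using Complex.abs_im_le_norm z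
  have h1 : |y| * ‖Complex.Gamma (B + y * I)‖ ≤ ‖Complex.Gamma ((x : ℂ) + y * I)‖ :=
    (mul_le_mul_of_nonneg_right (le_self_pow₀ hy (by omega)) (norm_nonneg _)).trans (hstep M)
  have h2 := norm_Gamma_mono (z := (x : ℂ) + y * I) (δ := A - x) (by simpa using hx0)
    (by linarith)
  rw [show ((x : ℂ) + y * I).re = x by simp, add_sub_cancel,
    show (x : ℂ) + y * I + ((A - x : ℝ) : ℂ) = A + y * I by push_cast; ring] at h2
  rw [mul_assoc, div_mul_eq_mul_div, div_le_iff₀ hgx]
  refine le_trans ?_ h2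
  rw [mul_comm (Real.Gamma A)]
  exact mul_le_mul_of_nonneg_right h1 (Real.Gamma_pos_of_pos (by linarith)).le

end FA.DegreeGap

end
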