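import Fermat.Agent.DegreeGap.Gamma

/-!
# Dirichlet series with a functional equation

The class of the theorem of Richert, Conrey and Ghosh, and the growth that the functional equation
gives on the lines `re s = 1/2 - k`.
-/

set_option autoImplicit false

noncomputable section

open Complex
open scoped Real ComplexConjugate

namespace FA.DegreeGap

/-- `Q^w ∏ Γ (λ_j w + μ_j)`. -/
def gammaFactor {r : ℕ} (lam : Fin r → ℝ) (mu : Fin r → ℂ) (Q : ℝ) (w : ℂ) : ℂ :=
  (Q : ℂ) ^ w * ∏ j, Complex.Gamma (lam j * w + mu j)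

/-- `∑ a n n^(-s)` converges absolutely for `re s > 1`, `E` is the entire continuation, of finite
order, of `(s-1)^m` times the series, and the functional equation holds; `1 / Γ` is read as `0` at
the poles of `Γ`. -/
structure HasFunctionalEquation (a : ℕ → ℂ) (m : ℕ) (E : ℂ → ℂ) {r : ℕ} (lam : Fin r → ℝ)
    (mu : Fin r → ℂ) (Q : ℝ) (omega : ℂ) : Prop where
  summable : ∀ s : ℂ, 1 < s.re → LSeriesSummable a s
  differentiable : Differentiable ℂ E
  eq_series : ∀ s : ℂ, 1 < s.re → E s = (s - 1) ^ m * LSeries a s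
  finite_order : ∃ (A : ℕ) (C : ℝ), ∀ s : ℂ, ‖E s‖ ≤ C * Real.exp (C * (1 + ‖s‖) ^ A)
  lam_pos : ∀ j, 0 < lam j
  mu_re : ∀ j, 0 ≤ (mu j).re
  Q_pos : 0 < Q
  norm_omega : ‖omega‖ = 1
  functional_equation : ∀ s : ℂ, s.re < 0 → E s = (s - 1) ^ m *
    (omega * conj (gammaFactor lam mu Q (1 - conj s) * LSeries a (1 - conj s)) *
      (gammaFactor lam mu Q s)⁻¹)

/-- The degree. -/
def degree {r : ℕ} (lam : Fin r → ℝ) : ℝ := 2 * ∑ j, lam j

variable {a : ℕ → ℂ} {m : ℕ} {E : ℂ → ℂ} {r : ℕ} {lam : Fin r → ℝ} {mu : Fin r → ℂ} {Q : ℝ}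
  {omega : ℂ}

theorem norm_lSeries_le {u : ℕ → ℂ} {σ : ℝ} (h : LSeriesSummable u (σ : ℂ)) {s : ℂ}
    (hs : σ ≤ s.re) : ‖LSeries u s‖ ≤ ∑' n, ‖LSeries.term u (σ : ℂ) n‖ :=
  tsum_of_norm_bounded h.norm.hasSum fun n =>
    LSeries.norm_term_le_of_re_le_re u (by simpa using hs) n

/-- One factor of the ratio. -/
theorem exists_factor_le {l : ℝ} (hl : 0 < l) {μ : ℂ} (hμ : 0 ≤ μ.re) :
    ∃ C B D : ℝ, 0 ≤ C ∧ 1 ≤ B ∧ 0 ≤ D ∧ ∀ (k : ℕ) (t : ℝ), 1 ≤ k →
      ‖Complex.Gamma (l * (1 - conj (((1 / 2 - k : ℝ) : ℂ) + t * I)) + μ)‖ *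
        ‖(Complex.Gamma (l * (((1 / 2 - k : ℝ) : ℂ) + t * I) + μ))⁻¹‖ ≤
        C * (B * (k + 1)) ^ (2 * l * k + D) * Real.exp (π * l * |t|) := by
  obtain ⟨C₁, hC₁0, hC₁⟩ := exists_norm_inv_Gamma_le
  refine ⟨2 * (l / 2)⁻¹ * C₁ * Real.exp (π * |μ.im|), l + ‖μ‖ + 3, l + μ.re + 4, by positivity,
    by linarith [norm_nonneg μ], by linarith, fun k t hk => ?_⟩
  have hk' : (1 : ℝ) ≤ k := by exact_mod_cast hk
  set B := l + ‖μ‖ + 3
  set X := B * ((k : ℝ) + 1)
  have hμn : μ.re ≤ ‖μ‖ := Complex.re_le_norm μ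
  have hX : l * k + l + ‖μ‖ + 3 ≤ X := by
    simp only [X, B]
    nlinarith [norm_nonneg μ]
  have hX1 : 1 ≤ X := by linarith [mul_nonneg hl.le (Nat.cast_nonneg (α := ℝ) k), norm_nonneg μ]
  set A := l * (1 / 2 + k) + μ.re
  have hA : l / 2 ≤ A := by
    simp only [A]
    nlinarith [mul_nonneg hl.le (Nat.cast_nonneg (α := ℝ) k)]
  have hA0 : 0 < A := by linarith
  have h1 : ‖Complex.Gamma (l * (1 - conj (((1 / 2 - k : ℝ) : ℂ) + t * I)) + μ)‖ ≤
      2 * (l / 2)⁻¹ * X ^ (l * k + (l + μ.re + 1)) := by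
    have hre : (l * (1 - conj (((1 / 2 - k : ℝ) : ℂ) + t * I)) + μ).re = A := by
      simp only [A, add_re, re_ofReal_mul, sub_re, one_re, Complex.conj_re, ofReal_re, I_re,
        mul_zero, add_zero]
      ring
    refine (HeckeBS.norm_Gamma_le_re (by rw [hre]; exact hA0)).trans ?_
    rw [hre]
    calc Real.Gamma A = Real.Gamma (A + 1) / A := by
          rw [Real.Gamma_add_one hA0.ne']
          field_simp
      _ ≤ 2 * (A + 1 + 1) ^ (A + 1) * (l / 2)⁻¹ := by
          rw [div_eq_mul_inv]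
          exact mul_le_mul (Gamma_le_rpow (by linarith)) (inv_anti₀ (by linarith) hA)
            (inv_nonneg.2 hA0.le) (by positivity)
      _ ≤ 2 * X ^ (l * k + (l + μ.re + 1)) * (l / 2)⁻¹ := by
          refine mul_le_mul_of_nonneg_right (mul_le_mul_of_nonneg_left
            ((Real.rpow_le_rpow (by linarith) ?_ (by linarith)).trans
              (Real.rpow_le_rpow_of_exponent_le hX1 ?_)) zero_le_two) (by positivity)
          · simp only [A]; linarith
          · simp only [A]; linarith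
      _ = _ := by ring
  have h2 : ‖(Complex.Gamma (l * (((1 / 2 - k : ℝ) : ℂ) + t * I) + μ))⁻¹‖ ≤
      C₁ * X ^ (l * k + 3) * (Real.exp (π * |μ.im|) * Real.exp (π * l * |t|)) := by
    set x := l * (1 / 2 - k) + μ.re
    have hre : (l * (((1 / 2 - k : ℝ) : ℂ) + t * I) + μ).re = x := by simp [x]
    have him : (l * (((1 / 2 - k : ℝ) : ℂ) + t * I) + μ).im = l * t + μ.im := by simp
    refine (hC₁ _).trans ?_
    rw [hre, him]
    have hx : |x| + 2 ≤ X := by
      have : |x| ≤ l * k + l + ‖μ‖ :=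
        abs_le.2 ⟨by simp only [x]; nlinarith [norm_nonneg μ],
          by simp only [x]; nlinarith [norm_nonneg μ]⟩
      linarith
    have hex : max (1 - x) 0 + 1 ≤ l * k + 3 := by
      have : max (1 - x) 0 ≤ l * k + 2 :=
        max_le (by simp only [x]; nlinarith) (by positivity)
      linarith
    have hexp : Real.exp (π * |l * t + μ.im|) ≤
        Real.exp (π * |μ.im|) * Real.exp (π * l * |t|) := by
      rw [← Real.exp_add]
      refine Real.exp_le_exp.2 ?_
      have h := abs_add_le (l * t) μ.im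
      rw [abs_mul, abs_of_pos hl] at h
      nlinarith [Real.pi_pos]
    refine mul_le_mul (mul_le_mul_of_nonneg_left ((Real.rpow_le_rpow (by positivity) hx
      (by positivity)).trans (Real.rpow_le_rpow_of_exponent_le hX1 hex)) hC₁0) hexp
      (Real.exp_nonneg _) (by positivity)
  refine (mul_le_mul h1 h2 (norm_nonneg _) (by positivity)).trans_eq ?_
  rw [show 2 * l * k + (l + μ.re + 4) = (l * k + (l + μ.re + 1)) + (l * k + 3) by ring,
    Real.rpow_add (by linarith) (l * k + (l + μ.re + 1)) (l * k + 3)]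
  ring

/-- The functional equation on the lines `re s = 1/2 - k`. -/
theorem HasFunctionalEquation.exists_norm_le
    (h : HasFunctionalEquation a m E lam mu Q omega) :
    ∃ C B D : ℝ, 0 ≤ C ∧ 1 ≤ B ∧ 0 ≤ D ∧ ∀ (k : ℕ) (t : ℝ), 1 ≤ k →
      ‖E (((1 / 2 - k : ℝ) : ℂ) + t * I)‖ ≤ C * B ^ k * (B * (k + 1)) ^ (degree lam * k + D) *
        (1 + |t|) ^ m * Real.exp (degree lam / 2 * π * |t|) := by
  choose C B D hC hB hD hj using fun j => exists_factor_le (h.lam_pos j) (h.mu_re j)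
  set B₀ := 1 + ∑ j, B j + 2 ^ m + Q ^ 2
  have hQ := h.Q_pos
  have hS0 : 0 ≤ ∑ j, B j := Finset.sum_nonneg fun j _ => zero_le_one.trans (hB j)
  have h2m : (0 : ℝ) ≤ 2 ^ m := by positivity
  have hB₀ : 1 ≤ B₀ := by simp only [B₀]; linarith [sq_nonneg Q]
  set S := ∑' n, ‖LSeries.term a ((3 / 2 : ℝ) : ℂ) n‖
  refine ⟨(∏ j, C j) * S, B₀, (∑ j, D j) + m,
    mul_nonneg (Finset.prod_nonneg fun j _ => hC j) (tsum_nonneg fun n => norm_nonneg _), hB₀,
    add_nonneg (Finset.sum_nonneg fun j _ => hD j) (Nat.cast_nonneg m), fun k t hk => ?_⟩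
  have hk' : (1 : ℝ) ≤ k := by exact_mod_cast hk
  set s : ℂ := ((1 / 2 - k : ℝ) : ℂ) + t * I with hs
  have hsre : s.re = 1 / 2 - k := by simp [hs]
  have hwre : (1 - conj s).re = 1 / 2 + k := by simp [hsre]; ring
  set X := B₀ * ((k : ℝ) + 1)
  have hX1 : 1 ≤ X := one_le_mul_of_one_le_of_one_le hB₀ (by linarith)
  rw [h.functional_equation s (by rw [hsre]; linarith), norm_mul, norm_pow, norm_mul, norm_mul,
    h.norm_omega, one_mul, Complex.norm_conj, norm_mul, gammaFactor, gammaFactor, mul_inv, norm_mul,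
    norm_mul]
  have hQpow : ‖(Q : ℂ) ^ (1 - conj s)‖ * ‖((Q : ℂ) ^ s)⁻¹‖ ≤ B₀ ^ k := by
    rw [norm_inv, norm_cpow_eq_rpow_re_of_pos hQ, norm_cpow_eq_rpow_re_of_pos hQ, hwre, hsre,
      ← div_eq_mul_inv, ← Real.rpow_sub hQ,
      show (1 / 2 + (k : ℝ)) - (1 / 2 - k) = ((2 * k : ℕ) : ℝ) by push_cast; ring,
      Real.rpow_natCast, pow_mul]
    exact pow_le_pow_left₀ (sq_nonneg Q) (by simp only [B₀]; linarith) k
  have hprod : ‖∏ j, Complex.Gamma (lam j * (1 - conj s) + mu j)‖ *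
      ‖(∏ j, Complex.Gamma (lam j * s + mu j))⁻¹‖ ≤
      (∏ j, C j) * X ^ (degree lam * k + ∑ j, D j) * Real.exp (degree lam / 2 * π * |t|) := by
    rw [norm_inv, norm_prod, norm_prod, ← Finset.prod_inv_distrib, ← Finset.prod_mul_distrib]
    calc ∏ j, ‖Complex.Gamma (lam j * (1 - conj s) + mu j)‖ *
          ‖Complex.Gamma (lam j * s + mu j)‖⁻¹
        ≤ ∏ j, C j * X ^ (2 * lam j * k + D j) * Real.exp (π * lam j * |t|) := by
          refine Finset.prod_le_prod (fun j _ => by positivity) fun j _ => ?_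
          rw [← norm_inv]
          refine (hj j k t hk).trans ?_
          refine mul_le_mul_of_nonneg_right (mul_le_mul_of_nonneg_left (Real.rpow_le_rpow
            (by nlinarith [hB j]) (mul_le_mul_of_nonneg_right ?_ (by positivity)) ?_) (hC j))
            (Real.exp_nonneg _)
          · have := Finset.single_le_sum (f := B) (fun i _ => zero_le_one.trans (hB i))
              (Finset.mem_univ j)
            simp only [B₀]
            linarith [sq_nonneg Q]
          · have := h.lam_pos j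
            have := hD j
            positivity
      _ = _ := by
          rw [Finset.prod_mul_distrib, Finset.prod_mul_distrib,
            ← Real.rpow_sum_of_pos (by linarith), ← Real.exp_sum, degree]
          congr 2
          · congr 1
            simp only [Finset.sum_add_distrib, Finset.mul_sum, Finset.sum_mul]
          · simp only [Finset.mul_sum, Finset.sum_mul, Finset.sum_div]
            exact Finset.sum_congr rfl fun j _ => by ring
  have hser : ‖LSeries a (1 - conj s)‖ ≤ S :=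
    norm_lSeries_le (h.summable _ (by norm_num)) (by rw [hwre]; linarith)
  have hlin : ‖s - 1‖ ^ m ≤ X ^ (m : ℝ) * (1 + |t|) ^ m := by
    rw [Real.rpow_natCast, ← mul_pow]
    rcases Nat.eq_zero_or_pos m with rfl | hm
    · simp
    refine pow_le_pow_left₀ (norm_nonneg _) ?_ m
    have h2 : 2 ≤ B₀ := by
      have : (2 : ℝ) ≤ 2 ^ m := le_self_pow₀ one_le_two hm.ne'
      simp only [B₀]
      linarith [sq_nonneg Q]
    have h3 : ‖s - 1‖ ≤ (k + 1) + |t| := by
      refine (norm_le_abs_re_add_abs_im _).trans ?_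
      rw [sub_re, hsre, one_re, abs_of_nonpos (by linarith)]
      simp [hs]
      linarith
    refine h3.trans ?_
    simp only [X]
    nlinarith [abs_nonneg t, mul_le_mul_of_nonneg_right h2 (show (0 : ℝ) ≤ (k + 1) * (1 + |t|) by
      positivity)]
  calc ‖s - 1‖ ^ m *
      (‖(Q : ℂ) ^ (1 - conj s)‖ * ‖∏ j, Complex.Gamma (lam j * (1 - conj s) + mu j)‖ *
        ‖LSeries a (1 - conj s)‖ *
        (‖((Q : ℂ) ^ s)⁻¹‖ * ‖(∏ j, Complex.Gamma (lam j * s + mu j))⁻¹‖))
      = ‖s - 1‖ ^ m * ((‖(Q : ℂ) ^ (1 - conj s)‖ * ‖((Q : ℂ) ^ s)⁻¹‖) *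
          (‖∏ j, Complex.Gamma (lam j * (1 - conj s) + mu j)‖ *
            ‖(∏ j, Complex.Gamma (lam j * s + mu j))⁻¹‖) * ‖LSeries a (1 - conj s)‖) := by ring
    _ ≤ (X ^ (m : ℝ) * (1 + |t|) ^ m) * (B₀ ^ k *
          ((∏ j, C j) * X ^ (degree lam * k + ∑ j, D j) * Real.exp (degree lam / 2 * π * |t|)) *
            S) := by
        have hPC : 0 ≤ ∏ j, C j := Finset.prod_nonneg fun j _ => hC j
        gcongr
    _ = _ := by
        rw [show degree lam * k + (∑ j, D j + (m : ℝ)) = (degree lam * k + ∑ j, D j) + m by ring,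
          Real.rpow_add (lt_of_lt_of_le zero_lt_one hX1) _ (m : ℝ)]
        ring

end FA.DegreeGap

end
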