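import Fermat.Agent.DegreeGap.Inversion

/-!
# The combination is entire in degree below one

Phragmén–Lindelöf moves the line of integration to `re s = 1/2 - k` past no pole, where the
functional equation makes the `k`-th Taylor coefficient at `1` smaller than every `R^(-k)`.
-/

set_option autoImplicit false

noncomputable section

open Complex MeasureTheory Filter Set
open scoped Real Topology

namespace FA.DegreeGap

variable {a : ℕ → ℂ} {m : ℕ} {E : ℂ → ℂ} {r : ℕ} {lam : Fin r → ℝ} {mu : Fin r → ℂ} {Q : ℝ}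
  {omega : ℂ}

theorem differentiableOn_Gamma_shift (k : ℕ) :
    DifferentiableOn ℂ (fun s : ℂ => Complex.Gamma (s + k)) {s | -(k : ℝ) < s.re} := fun s hs => by
  refine (DifferentiableAt.comp s (differentiableAt_Gamma (s + k) fun n e => ?_)
    (differentiableAt_id.add_const _)).differentiableWithinAt
  have h := congrArg Complex.re e
  have hs' : -(k : ℝ) < s.re := hs
  simp at h
  linarith [Nat.cast_nonneg (α := ℝ) n]

theorem norm_Gamma_shift_le {k : ℕ} {s : ℂ} (h1 : 1 / 2 - (k : ℝ) ≤ s.re) (h2 : s.re ≤ 5 / 2) :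
    ‖Complex.Gamma (s + k)‖ ≤ 2 * (7 / 2 + k) ^ (5 / 2 + k : ℝ) := by
  have hre : (s + k).re = s.re + k := by simp
  refine (HeckeBS.norm_Gamma_le_re (by rw [hre]; linarith)).trans ?_
  rw [hre]
  refine (Gamma_le_rpow (by linarith)).trans (mul_le_mul_of_nonneg_left ?_ zero_le_two)
  exact (Real.rpow_le_rpow (by linarith) (by linarith) (by linarith)).trans
    (Real.rpow_le_rpow_of_exponent_le (by linarith [Nat.cast_nonneg (α := ℝ) k]) (by linarith))

theorem exists_pow_le_exp (j : ℕ) {c : ℝ} (hc : 0 < c) :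
    ∃ K : ℝ, 0 ≤ K ∧ ∀ y : ℝ, (1 + |y|) ^ j ≤ K * Real.exp (c * |y|) := by
  obtain ⟨K, hK0, hK⟩ := exists_poly_mul_exp_le j hc
  refine ⟨K, hK0, fun y => ?_⟩
  have h1 : (1 + y ^ 2)⁻¹ ≤ 1 := inv_le_one_of_one_le₀ (by nlinarith)
  have h2 := (hK y).trans (mul_le_of_le_one_right hK0 h1)
  rw [Real.exp_neg, ← div_eq_mul_inv, div_le_iff₀ (Real.exp_pos _)] at h2
  exact h2

/-- Finite order is admissible in Phragmén–Lindelöf. -/
theorem HasFunctionalEquation.isBigO_growth (h : HasFunctionalEquation a m E lam mu Q omega)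
    (k : ℕ) (e : ℝ) {c : ℝ} (hc : 0 < c) : ∃ B : ℝ,
      (fun s => E s * Complex.Gamma (s + k) * cexp ((e : ℂ) * I * s))
        =O[comap (_root_.abs ∘ im) atTop ⊓ 𝓟 (re ⁻¹' Ioo (1 / 2 - (k : ℝ)) (5 / 2))]
          fun z => Real.exp (B * Real.exp (c * |z.im|)) := by
  obtain ⟨A, C, hE⟩ := h.finite_order
  obtain ⟨K, hK0, hK⟩ := exists_pow_le_exp A hc
  obtain ⟨K', hK'0, hK'⟩ := exists_pow_le_exp 1 hc
  set W : ℝ := 7 / 2 + k
  have hW : 1 ≤ W := by simp only [W]; linarith [Nat.cast_nonneg (α := ℝ) k]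
  refine ⟨|C| * W ^ A * K + |e| * K',
    Asymptotics.IsBigO.of_bound (|C| * (2 * (7 / 2 + k) ^ (5 / 2 + k : ℝ))) ?_⟩
  rw [eventually_inf_principal]
  refine Eventually.of_forall fun s hs => ?_
  rw [mem_preimage, mem_Ioo] at hs
  rw [norm_mul, norm_mul, Real.norm_of_nonneg (Real.exp_pos _).le]
  have h1 : ‖E s‖ ≤ |C| * Real.exp (|C| * W ^ A * K * Real.exp (c * |s.im|)) := by
    refine (hE s).trans (mul_le_mul (le_abs_self C) (Real.exp_le_exp.2 ?_) (Real.exp_nonneg _)
      (abs_nonneg C))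
    have hn : 1 + ‖s‖ ≤ W * (1 + |s.im|) := by
      have h0 := norm_le_abs_re_add_abs_im s
      have hre : |s.re| ≤ W - 1 :=
        abs_le.2 ⟨by simp only [W]; linarith [hs.1], by
          simp only [W]; linarith [hs.2, Nat.cast_nonneg (α := ℝ) k]⟩
      nlinarith [abs_nonneg s.im]
    calc C * (1 + ‖s‖) ^ A ≤ |C| * (W * (1 + |s.im|)) ^ A :=
          mul_le_mul (le_abs_self C) (pow_le_pow_left₀ (by positivity) hn A) (by positivity)
            (abs_nonneg C)
      _ ≤ |C| * W ^ A * (K * Real.exp (c * |s.im|)) := by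
          rw [mul_pow, mul_assoc]
          gcongr
          exact hK _
      _ = _ := by ring
  have h2 := norm_Gamma_shift_le hs.1.le hs.2.le
  have h3 : ‖cexp ((e : ℂ) * I * s)‖ ≤ Real.exp (|e| * K' * Real.exp (c * |s.im|)) := by
    rw [Complex.norm_exp, mul_assoc]
    refine Real.exp_le_exp.2 ?_
    simp only [mul_re, I_re, ofReal_re, ofReal_im, I_im, mul_im, zero_mul, one_mul, sub_zero,
      zero_sub, zero_add]
    have h4 : |s.im| ≤ K' * Real.exp (c * |s.im|) := by
      have := hK' s.im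
      rw [pow_one] at this
      linarith
    calc e * -s.im ≤ |e| * |s.im| := by rw [← abs_neg s.im, ← abs_mul]; exact le_abs_self _
      _ ≤ |e| * (K' * Real.exp (c * |s.im|)) := mul_le_mul_of_nonneg_left h4 (abs_nonneg e)
      _ = _ := (mul_assoc _ _ _).symm
  refine (mul_le_mul (mul_le_mul h1 h2 (norm_nonneg _) (by positivity)) h3 (norm_nonneg _)
    (by positivity)).trans_eq ?_
  rw [add_mul (|C| * W ^ A * K), Real.exp_add]
  ring

theorem degree_nonneg (h : HasFunctionalEquation a m E lam mu Q omega) : 0 ≤ degree lam :=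
  mul_nonneg zero_le_two (Finset.sum_nonneg fun j _ => (h.lam_pos j).le)

/-- The coefficient of the bound on the left line. -/
theorem HasFunctionalEquation.exists_norm_left (h : HasFunctionalEquation a m E lam mu Q omega) :
    ∃ C B D : ℝ, 0 ≤ C ∧ 1 ≤ B ∧ 0 ≤ D ∧ ∀ (k : ℕ) (y : ℝ), 1 ≤ k →
      ‖E (pt (1 / 2 - k) y) * Complex.Gamma (pt (1 / 2 - k) y + k)‖ ≤
        C * B ^ k * (B * (k + 1)) ^ (degree lam * k + D) * (1 + |y|) ^ m *
          Real.exp (-((1 - degree lam) * π / 2 * |y|)) := by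
  obtain ⟨C, B, D, hC, hB, hD, hE⟩ := h.exists_norm_le
  refine ⟨3 * C, B, D, by positivity, hB, hD, fun k y hk => ?_⟩
  have hX : 0 ≤ B * ((k : ℝ) + 1) := mul_nonneg (by linarith) (by positivity)
  have hp : pt (1 / 2 - k) y + k = (1 / 2 : ℂ) + y * I := by simp only [pt]; push_cast; ring
  rw [norm_mul, hp]
  refine (mul_le_mul (hE k y hk) (norm_Gamma_half_bounds y).2 (norm_nonneg _)
    (by positivity)).trans_eq ?_
  rw [show -((1 - degree lam) * π / 2 * |y|) = degree lam / 2 * π * |y| + -(π * |y| / 2) by ring,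
    Real.exp_add]
  ring

/-- The decay in the strip. -/
theorem HasFunctionalEquation.exists_norm_strip (h : HasFunctionalEquation a m E lam mu Q omega)
    (hd : degree lam < 1) {k : ℕ} (hk : 1 ≤ k) :
    ∃ (M δ : ℝ), 0 ≤ M ∧ 0 < δ ∧ ∀ s : ℂ, 1 / 2 - (k : ℝ) ≤ s.re → s.re ≤ 5 / 2 →
      ‖E s * Complex.Gamma (s + k)‖ ≤ M * Real.exp (-(δ * |s.im|)) := by
  obtain ⟨C₁, hC₁0, hC₁⟩ := h.exists_norm_right k
  obtain ⟨C, B, D, hC0, hB, hD, hC⟩ := h.exists_norm_left
  set δ := (1 - degree lam) * π / 4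
  have hδ : 0 < δ := by
    have : 0 < (1 - degree lam) * π := mul_pos (by linarith) Real.pi_pos
    simp only [δ]
    linarith
  have hδ2 : 2 * δ ≤ π / 2 := by
    have := mul_nonneg (degree_nonneg h) Real.pi_pos.le
    simp only [δ]
    linarith
  obtain ⟨K₁, hK₁0, hK₁⟩ := exists_pow_le_exp (m + (2 + k)) hδ
  obtain ⟨K, hK0, hK⟩ := exists_pow_le_exp m hδ
  set C' := C * B ^ k * (B * ((k : ℝ) + 1)) ^ (degree lam * k + D)
  have hC'0 : 0 ≤ C' := by
    have hX : 0 ≤ B * ((k : ℝ) + 1) := mul_nonneg (by linarith) (by positivity)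
    positivity
  set M := max (C₁ * K₁) (C' * K)
  refine ⟨M, δ, le_max_of_le_left (by positivity), hδ, fun s hs1 hs2 => ?_⟩
  have edge : ∀ (e : ℝ), |e| = δ → ∀ z : ℂ,
      z.re = 1 / 2 - (k : ℝ) ∨ z.re = 5 / 2 →
        ‖E z * Complex.Gamma (z + k) * cexp ((e : ℂ) * I * z)‖ ≤ M := by
    intro e he z hz
    have h3 : ‖cexp ((e : ℂ) * I * z)‖ ≤ Real.exp (δ * |z.im|) := by
      rw [Complex.norm_exp, mul_assoc]
      refine Real.exp_le_exp.2 ?_
      simp only [mul_re, I_re, ofReal_re, ofReal_im, I_im, mul_im, zero_mul, one_mul, sub_zero,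
        zero_sub, zero_add]
      rw [← he, ← abs_neg z.im, ← abs_mul]
      exact le_abs_self _
    have hexp : ∀ u : ℝ, 2 * δ ≤ u →
        Real.exp (δ * |z.im|) * Real.exp (-(u * |z.im|)) * Real.exp (δ * |z.im|) ≤ 1 := by
      intro u hu
      rw [← Real.exp_add, ← Real.exp_add]
      refine Real.exp_le_one_iff.2 ?_
      nlinarith [abs_nonneg z.im]
    rw [norm_mul]
    rcases hz with hz | hz
    · have ez : z = pt (1 / 2 - k) z.im := by rw [← hz]; exact (Complex.re_add_im z).symm
      have h1 := hC k z.im hk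
      rw [← ez] at h1
      calc ‖E z * Complex.Gamma (z + k)‖ * ‖cexp ((e : ℂ) * I * z)‖
          ≤ (C' * (K * Real.exp (δ * |z.im|)) *
              Real.exp (-((1 - degree lam) * π / 2 * |z.im|))) * Real.exp (δ * |z.im|) := by
            refine mul_le_mul (h1.trans ?_) h3 (norm_nonneg _) (by positivity)
            gcongr
            exact hK _
        _ = C' * K * (Real.exp (δ * |z.im|) *
              Real.exp (-((1 - degree lam) * π / 2 * |z.im|)) * Real.exp (δ * |z.im|)) := by ring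
        _ ≤ C' * K * 1 := mul_le_mul_of_nonneg_left (hexp _ (by simp only [δ]; linarith))
            (by positivity)
        _ ≤ M := by rw [mul_one]; exact le_max_right _ _
    · have ez : z = pt (5 / 2) z.im := by rw [← hz]; exact (Complex.re_add_im z).symm
      have h1 := hC₁ z.im
      rw [← ez] at h1
      calc ‖E z * Complex.Gamma (z + k)‖ * ‖cexp ((e : ℂ) * I * z)‖
          ≤ (C₁ * (K₁ * Real.exp (δ * |z.im|)) * Real.exp (-(π / 2 * |z.im|))) *
              Real.exp (δ * |z.im|) := by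
            refine mul_le_mul (h1.trans ?_) h3 (norm_nonneg _) (by positivity)
            gcongr
            exact hK₁ _
        _ = C₁ * K₁ * (Real.exp (δ * |z.im|) *
              Real.exp (-(π / 2 * |z.im|)) * Real.exp (δ * |z.im|)) := by ring
        _ ≤ C₁ * K₁ * 1 := mul_le_mul_of_nonneg_left (hexp _ hδ2) (by positivity)
        _ ≤ M := by rw [mul_one]; exact le_max_left _ _
  have hkey : ∀ e : ℝ, |e| = δ →
      ‖E s * Complex.Gamma (s + k) * cexp ((e : ℂ) * I * s)‖ ≤ M := by
    intro e he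
    have hk' : (1 : ℝ) ≤ k := by exact_mod_cast hk
    have hw : 0 < 5 / 2 - (1 / 2 - (k : ℝ)) := by linarith
    obtain ⟨B', hB'⟩ := h.isBigO_growth k e (c := π / (5 / 2 - (1 / 2 - (k : ℝ))) / 2)
      (by positivity)
    refine PhragmenLindelof.vertical_strip (a := 1 / 2 - (k : ℝ)) (b := 5 / 2)
      (f := fun z => E z * Complex.Gamma (z + k) * cexp ((e : ℂ) * I * z))
      (DifferentiableOn.diffContOnCl ?_)
      ⟨_, half_lt_self (by positivity), B', hB'⟩ (fun z hz => edge e he z (Or.inl hz))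
      (fun z hz => edge e he z (Or.inr hz)) hs1 hs2
    have hd' : DifferentiableOn ℂ (fun z => E z * Complex.Gamma (z + k) * cexp ((e : ℂ) * I * z))
        {z | -(k : ℝ) < z.re} :=
      (h.differentiable.differentiableOn.mul (differentiableOn_Gamma_shift k)).mul
        ((differentiable_id.const_mul _).cexp).differentiableOn
    refine hd'.mono fun z hz => ?_
    have hz' : z.re ∈ Icc (1 / 2 - (k : ℝ)) (5 / 2) := by
      have := (Complex.continuous_re.closure_preimage_subset _) hz
      rwa [closure_Ioo (by linarith)] at this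
    show -(k : ℝ) < z.re
    linarith [hz'.1]
  have hn : ∀ e : ℝ, ‖cexp ((e : ℂ) * I * s)‖ = Real.exp (-(e * s.im)) := fun e => by
    rw [Complex.norm_exp]
    congr 1
    simp
  rw [Real.exp_neg, ← div_eq_mul_inv, le_div_iff₀ (Real.exp_pos _)]
  rcases le_total 0 s.im with hs | hs
  · have h1 := hkey (-δ) (by rw [abs_neg, abs_of_pos hδ])
    rwa [norm_mul, hn, neg_mul, neg_neg, ← abs_of_nonneg hs] at h1
  · have h1 := hkey δ (abs_of_pos hδ)
    rwa [norm_mul, hn, ← mul_neg, ← abs_of_nonpos hs] at h1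

/-- **The line moves to `re s = 1/2 - k`.** -/
theorem HasFunctionalEquation.lineIntegral_shift (h : HasFunctionalEquation a m E lam mu Q omega)
    (hd : degree lam < 1) {k : ℕ} (hk : 1 ≤ k) :
    lineIntegral E k 1 =
      ∫ y : ℝ, E (pt (1 / 2 - k) y) * Complex.Gamma (pt (1 / 2 - k) y + k) := by
  obtain ⟨M, δ, hM0, hδ, hM⟩ := h.exists_norm_strip hd hk
  have hk' : (1 : ℝ) ≤ k := by exact_mod_cast hk
  set Φ : ℂ → ℂ := fun s => E s * Complex.Gamma (s + k)
  have hΦ : DifferentiableOn ℂ Φ {s | -(k : ℝ) < s.re} :=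
    h.differentiable.differentiableOn.mul (differentiableOn_Gamma_shift k)
  have hint : ∀ c : ℝ, 1 / 2 - (k : ℝ) ≤ c → c ≤ 5 / 2 → Integrable fun y => Φ (pt c y) := by
    intro c h1 h2
    refine integrable_of_decay (C := M) ((hΦ.continuousOn).comp_continuous (continuous_pt c)
      fun y => ?_) 0 hδ fun y => ?_
    · show -(k : ℝ) < (pt c y).re
      rw [pt_re]
      linarith
    · have := hM (pt c y) (by rw [pt_re]; exact h1) (by rw [pt_re]; exact h2)
      rw [pt_im] at this
      rwa [pow_zero, mul_one]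
  have hrect : ∀ T : ℝ, (∫ y in (-T)..T, Φ (pt (5 / 2) y)) -
      (∫ y in (-T)..T, Φ (pt (1 / 2 - k) y)) =
        I * ((∫ x in (1 / 2 - (k : ℝ))..(5 / 2), Φ (pt x (-T))) -
          ∫ x in (1 / 2 - (k : ℝ))..(5 / 2), Φ (pt x T)) := by
    intro T
    have hc := Complex.integral_boundary_rect_eq_zero_of_differentiableOn Φ (pt (1 / 2 - k) (-T))
      (pt (5 / 2) T) (hΦ.mono fun z hz => ?_)
    · simp only [pt_re, pt_im, smul_eq_mul] at hc
      simp only [pt] at hc ⊢
      linear_combination (-I) * hc + ((∫ y in (-T)..T, Φ (((5 / 2 : ℝ) : ℂ) + y * I)) -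
        ∫ y in (-T)..T, Φ (((1 / 2 - k : ℝ) : ℂ) + y * I)) * I_sq
    · simp only [pt_re, pt_im] at hz
      have h1 := (Complex.mem_reProdIm.1 hz).1
      rw [uIcc_of_le (by linarith)] at h1
      show -(k : ℝ) < z.re
      linarith [h1.1]
  have hhor : ∀ g : ℝ → ℝ, Tendsto (fun T => |g T|) atTop atTop →
      Tendsto (fun T => ∫ x in (1 / 2 - (k : ℝ))..(5 / 2), Φ (pt x (g T))) atTop (𝓝 0) := by
    intro g hg
    have hlim : Tendsto (fun T => M * Real.exp (-(δ * |g T|)) * |5 / 2 - (1 / 2 - (k : ℝ))|) atTop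
        (𝓝 0) := by
      simpa using ((Real.tendsto_exp_neg_atTop_nhds_zero.comp
        (hg.const_mul_atTop hδ)).const_mul M).mul_const |5 / 2 - (1 / 2 - (k : ℝ))|
    refine squeeze_zero_norm (fun T => ?_) hlim
    refine intervalIntegral.norm_integral_le_of_norm_le_const fun x hx => ?_
    rw [uIoc_of_le (by linarith)] at hx
    have := hM (pt x (g T)) (by rw [pt_re]; exact hx.1.le) (by rw [pt_re]; exact hx.2)
    rwa [pt_im] at this
  have hR := intervalIntegral_tendsto_integral (hint (5 / 2) (by linarith) le_rfl)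
    tendsto_neg_atTop_atBot tendsto_id
  have hL := intervalIntegral_tendsto_integral (hint (1 / 2 - k) le_rfl (by linarith))
    tendsto_neg_atTop_atBot tendsto_id
  have h0 : Tendsto (fun T : ℝ => I * ((∫ x in (1 / 2 - (k : ℝ))..(5 / 2), Φ (pt x (-T))) -
      ∫ x in (1 / 2 - (k : ℝ))..(5 / 2), Φ (pt x T))) atTop (𝓝 0) := by
    simpa using ((hhor (fun T => -T) (by simpa using tendsto_abs_atTop_atTop)).sub
      (hhor id tendsto_abs_atTop_atTop)).const_mul I
  have e := tendsto_nhds_unique (hR.sub hL) (h0.congr fun T => (hrect T).symm)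
  rw [sub_eq_zero] at e
  rw [← e, lineIntegral]
  exact integral_congr_ae (Eventually.of_forall fun y => by simp [lineFn, Φ])

/-- The Taylor coefficients at `1`. -/
def taylorCoeff (a : ℕ → ℂ) (m k : ℕ) : ℂ :=
  ((k.factorial : ℕ) : ℂ)⁻¹ * iteratedDeriv k (weightedSeries a m) 1

theorem HasFunctionalEquation.exists_taylor_bound
    (h : HasFunctionalEquation a m E lam mu Q omega) (hd : degree lam < 1) :
    ∃ C X : ℝ, 0 ≤ X ∧ ∀ k : ℕ, 1 ≤ k →
      ‖taylorCoeff a m k‖ ≤ C * (X * (k : ℝ) ^ (degree lam - 1)) ^ k := by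
  obtain ⟨C, B, D, hC0, hB, hD, hC⟩ := h.exists_norm_left
  set d := degree lam with hdd
  have hd0 : 0 ≤ d := degree_nonneg h
  have hε : 0 < (1 - d) * π / 2 := by
    have : 0 < (1 - d) * π := mul_pos (by linarith) Real.pi_pos
    linarith
  obtain ⟨K, hK0, hK⟩ := exists_poly_mul_exp_le m hε
  set N := ⌈D⌉₊
  refine ⟨C * K * π * ((2 * B) ^ N * N.factorial) / (2 * π),
    B * (2 * B) ^ d * Real.exp 1 * Real.exp 1, by positivity, fun k hk => ?_⟩
  have hk1 : (1 : ℝ) ≤ k := by exact_mod_cast hk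
  have hk0 : (0 : ℝ) < k := by linarith
  set X := C * B ^ k * (B * ((k : ℝ) + 1)) ^ (d * k + D)
  have hX0 : 0 ≤ X := by
    have : 0 ≤ B * ((k : ℝ) + 1) := mul_nonneg (by linarith) (by positivity)
    positivity
  have hJ : ‖lineIntegral E k 1‖ ≤ X * (K * π) := by
    rw [h.lineIntegral_shift hd hk]
    refine (norm_integral_le_of_norm_le (integrable_inv_one_add_sq.const_mul (X * K))
      (Eventually.of_forall fun y => ?_)).trans_eq ?_
    · refine (hC k y hk).trans ?_
      rw [mul_assoc X K, mul_assoc X]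
      exact mul_le_mul_of_nonneg_left (hK y) hX0
    · rw [integral_const_mul, integral_univ_inv_one_add_sq]
      ring
  have hpow : (B * ((k : ℝ) + 1)) ^ (d * k + D) ≤
      ((2 * B) ^ d * (k : ℝ) ^ d) ^ k * ((2 * B) ^ N * N.factorial * Real.exp 1 ^ k) := by
    have h2 : 1 ≤ 2 * B * k := one_le_mul_of_one_le_of_one_le (by linarith) hk1
    calc (B * ((k : ℝ) + 1)) ^ (d * k + D)
        ≤ (2 * B * k) ^ (d * k + D) :=
          Real.rpow_le_rpow (mul_nonneg (by linarith) (by positivity)) (by nlinarith)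
            (by positivity)
      _ ≤ (2 * B * k) ^ (d * k + N) :=
          Real.rpow_le_rpow_of_exponent_le h2 (by linarith [Nat.le_ceil D])
      _ = ((2 * B) ^ d * (k : ℝ) ^ d) ^ k * ((2 * B) ^ N * (k : ℝ) ^ N) := by
          rw [Real.rpow_add (by linarith), Real.rpow_natCast, mul_pow, Real.rpow_mul (by linarith),
            Real.rpow_natCast, Real.mul_rpow (by linarith) hk0.le]
      _ ≤ _ := by
          have hkN : (k : ℝ) ^ N ≤ N.factorial * Real.exp 1 ^ k := by
            rw [Real.exp_one_pow, ← div_le_iff₀' (by positivity)]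
            exact Real.pow_div_factorial_le_exp (k : ℝ) hk0.le N
          rw [mul_assoc ((2 * B) ^ N)]
          gcongr
  have hfac : ((k.factorial : ℝ))⁻¹ ≤ Real.exp 1 ^ k / (k : ℝ) ^ k := by
    rw [Real.exp_one_pow, inv_eq_one_div, div_le_div_iff₀ (by positivity) (by positivity), one_mul,
      ← div_le_iff₀ (by positivity)]
    exact Real.pow_div_factorial_le_exp (k : ℝ) hk0.le k
  rw [taylorCoeff, ← ofReal_one, h.iteratedDeriv_weightedSeries k one_pos, norm_mul, norm_inv,
    Complex.norm_natCast, norm_div, norm_mul, norm_pow, norm_neg, norm_one, one_pow, one_mul,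
    norm_mul, Complex.norm_ofNat, Complex.norm_real, Real.norm_of_nonneg Real.pi_pos.le]
  calc ((k.factorial : ℝ))⁻¹ * (‖lineIntegral E k 1‖ / (2 * π))
      ≤ Real.exp 1 ^ k / (k : ℝ) ^ k * (C * B ^ k * (((2 * B) ^ d * (k : ℝ) ^ d) ^ k *
          ((2 * B) ^ N * N.factorial * Real.exp 1 ^ k)) * (K * π) / (2 * π)) := by
        refine mul_le_mul hfac (div_le_div_of_nonneg_right (hJ.trans ?_) (by positivity))
          (by positivity) (by positivity)
        simp only [X]
        gcongr
    _ = _ := by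
        have hk' : (k : ℝ) ^ (d - 1) = (k : ℝ) ^ d / k := by
          rw [Real.rpow_sub_one hk0.ne']
        rw [hk', mul_pow, mul_pow, mul_pow, mul_pow, mul_pow, div_pow]
        field_simp
        rw [mul_pow]
        ring

theorem HasFunctionalEquation.summable_taylor (h : HasFunctionalEquation a m E lam mu Q omega)
    (hd : degree lam < 1) {R : ℝ} (hR : 0 < R) :
    Summable fun k => ‖taylorCoeff a m k‖ * R ^ k := by
  obtain ⟨C, X, hX0, hC⟩ := h.exists_taylor_bound hd
  refine Summable.of_norm_bounded_eventually_nat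
    (summable_geometric_two.mul_left |C|) ?_
  have hlim : Tendsto (fun k : ℕ => R * X * (k : ℝ) ^ (-(1 - degree lam))) atTop (𝓝 0) := by
    simpa using ((tendsto_rpow_neg_atTop (sub_pos.2 hd)).comp
      tendsto_natCast_atTop_atTop).const_mul (R * X)
  filter_upwards [eventually_ge_atTop 1, hlim.eventually (Iic_mem_nhds (show (0 : ℝ) < 1 / 2 by
    norm_num))] with k hk hsmall
  rw [norm_mul, norm_pow, norm_norm, Real.norm_of_nonneg hR.le]
  calc ‖taylorCoeff a m k‖ * R ^ k ≤ C * (X * (k : ℝ) ^ (degree lam - 1)) ^ k * R ^ k :=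
        mul_le_mul_of_nonneg_right (hC k hk) (pow_nonneg hR.le k)
    _ ≤ |C| * (R * X * (k : ℝ) ^ (-(1 - degree lam))) ^ k := by
        rw [neg_sub, mul_assoc R, mul_pow R, mul_assoc C,
          mul_comm ((X * (k : ℝ) ^ (degree lam - 1)) ^ k)]
        exact mul_le_mul_of_nonneg_right (le_abs_self C) (by positivity)
    _ ≤ |C| * (1 / 2) ^ k := by
        refine mul_le_mul_of_nonneg_left (pow_le_pow_left₀ ?_ hsmall k) (abs_nonneg C)
        positivity

/-- The entire continuation of the combination. -/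
def weightedEntire (a : ℕ → ℂ) (m : ℕ) (z : ℂ) : ℂ := ∑' k, taylorCoeff a m k * (z - 1) ^ k

theorem HasFunctionalEquation.differentiable_weightedEntire
    (h : HasFunctionalEquation a m E lam mu Q omega) (hd : degree lam < 1) :
    Differentiable ℂ (weightedEntire a m) := fun z => by
  have hd' : DifferentiableOn ℂ (weightedEntire a m) (Metric.ball 1 (‖z - 1‖ + 1)) :=
    differentiableOn_tsum_of_summable_norm (h.summable_taylor hd (R := ‖z - 1‖ + 1) (by positivity))
      (fun k => (((differentiable_id.sub_const 1).pow k).const_mul _).differentiableOn)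
      Metric.isOpen_ball fun k w hw => by
        rw [norm_mul, norm_pow]
        rw [Metric.mem_ball, dist_eq_norm] at hw
        exact mul_le_mul_of_nonneg_left (pow_le_pow_left₀ (norm_nonneg _) hw.le k) (norm_nonneg _)
  exact hd'.differentiableAt (Metric.isOpen_ball.mem_nhds (by simp [dist_eq_norm]))

theorem HasFunctionalEquation.weightedEntire_eq
    (h : HasFunctionalEquation a m E lam mu Q omega) (hd : degree lam < 1) {z : ℂ}
    (hz : 0 < z.re) : weightedEntire a m z = weightedSeries a m z := by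
  have hU : IsOpen {w : ℂ | 0 < w.re} := isOpen_lt continuous_const Complex.continuous_re
  have hf := differentiableOn_weightedSeries (h.summable 2 (by norm_num)) m
  refine AnalyticOnNhd.eqOn_of_preconnected_of_eventuallyEq (𝕜 := ℂ)
    (fun w _ => (h.differentiable_weightedEntire hd).analyticAt w) (hf.analyticOnNhd hU)
    (convex_halfSpace_re_gt 0).isPreconnected (show (1 : ℂ) ∈ {w : ℂ | 0 < w.re} by simp) ?_ hz
  filter_upwards [Metric.ball_mem_nhds (1 : ℂ) one_pos] with w hw
  refine (tsum_congr fun k => ?_).trans (Complex.taylorSeries_eq_on_ball' hw (hf.mono ?_))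
  · rw [taylorCoeff]
  · intro v hv
    rw [Metric.mem_ball, dist_eq_norm] at hv
    have := (Complex.abs_re_le_norm (v - 1)).trans_lt hv
    rw [sub_re, one_re, abs_lt] at this
    show 0 < v.re
    linarith

end FA.DegreeGap

end
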