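import Fermat.Agent.DegreeGap.Datum

/-!
# The exponential series as an integral

`(z^i ∑ a n n^i exp (-n z))` combined to match `(s-1)^m` is holomorphic for `re z > 0`, and on the
positive axis its derivatives are integrals of `E s Γ (s+k)` over the line `re s = 5/2`.
-/

set_option autoImplicit false

noncomputable section

open Complex MeasureTheory Filter Set
open scoped Real Topology

namespace FA.DegreeGap

/-- The point at height `y` on `re = c`. -/
def pt (c y : ℝ) : ℂ := c + y * I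

theorem pt_re (c y : ℝ) : (pt c y).re = c := by simp [pt]

theorem pt_im (c y : ℝ) : (pt c y).im = y := by simp [pt]

theorem continuous_pt (c : ℝ) : Continuous (pt c) :=
  continuous_const.add (Complex.continuous_ofReal.mul continuous_const)

theorem exists_poly_mul_exp_le (j : ℕ) {ε : ℝ} (hε : 0 < ε) : ∃ C : ℝ, 0 ≤ C ∧
    ∀ y : ℝ, (1 + |y|) ^ j * Real.exp (-(ε * |y|)) ≤ C * (1 + y ^ 2)⁻¹ := by
  refine ⟨((j + 2).factorial : ℝ) / ε ^ (j + 2) * Real.exp ε, by positivity, fun y => ?_⟩
  have h := Real.pow_div_factorial_le_exp (x := ε * (1 + |y|)) (by positivity) (j + 2)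
  rw [← div_eq_mul_inv, le_div_iff₀ (by positivity)]
  have h2 : 1 + y ^ 2 ≤ (1 + |y|) ^ 2 := by nlinarith [abs_nonneg y, sq_abs y]
  rw [div_le_iff₀ (by positivity), mul_pow, mul_add, mul_one, Real.exp_add] at h
  calc (1 + |y|) ^ j * Real.exp (-(ε * |y|)) * (1 + y ^ 2)
      ≤ (1 + |y|) ^ j * Real.exp (-(ε * |y|)) * (1 + |y|) ^ 2 := by gcongr
    _ = (ε ^ (j + 2) * (1 + |y|) ^ (j + 2)) * Real.exp (-(ε * |y|)) / ε ^ (j + 2) := by
        field_simp
        ring
    _ ≤ (Real.exp ε * Real.exp (ε * |y|) * (j + 2).factorial) * Real.exp (-(ε * |y|)) /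
        ε ^ (j + 2) := by gcongr
    _ = _ := by
        rw [Real.exp_neg]
        field_simp

theorem integrable_of_decay {F : ℝ → ℂ} (hF : Continuous F) {C : ℝ} (j : ℕ) {ε : ℝ} (hε : 0 < ε)
    (h : ∀ y, ‖F y‖ ≤ C * (1 + |y|) ^ j * Real.exp (-(ε * |y|))) : Integrable F := by
  obtain ⟨B, hB0, hB⟩ := exists_poly_mul_exp_le j hε
  refine (integrable_inv_one_add_sq.const_mul (|C| * B)).mono' hF.aestronglyMeasurable
    (Eventually.of_forall fun y => (h y).trans ?_)
  rw [mul_assoc, mul_assoc]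
  exact (mul_le_mul_of_nonneg_right (le_abs_self C) (by positivity)).trans
    (mul_le_mul_of_nonneg_left (hB y) (abs_nonneg C))

theorem continuous_Gamma_pt {c : ℝ} (hc : 0 < c) : Continuous fun y => Complex.Gamma (pt c y) :=
  continuous_iff_continuousAt.2 fun y => (differentiableAt_Gamma _ fun n e => by
    have h := congrArg Complex.re e
    simp [pt] at h
    linarith [Nat.cast_nonneg (α := ℝ) n]).continuousAt.comp (continuous_pt c).continuousAt

theorem integrable_Gamma_pt (N : ℕ) :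
    Integrable fun y => Complex.Gamma (pt (1 / 2 + N) y) := by
  obtain ⟨C, -, hC⟩ := exists_norm_Gamma_line N
  refine integrable_of_decay (C := C) (continuous_Gamma_pt (by positivity)) N (ε := π / 2)
    (by positivity) fun y => ?_
  rw [show π / 2 * |y| = π * |y| / 2 by ring]
  exact hC y

/-- Inversion of `exp (-u)`. -/
theorem integral_Gamma_inversion (N : ℕ) {u : ℝ} (hu : 0 < u) :
    ∫ y : ℝ, (u : ℂ) ^ (-(pt (1 / 2 + N) y)) * Complex.Gamma (pt (1 / 2 + N) y) =
      2 * π * Real.exp (-u) := by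
  set σ : ℝ := 1 / 2 + N
  have hσ : 0 < σ := by positivity
  have hm : ∀ y : ℝ, mellin (fun x : ℝ => ((Real.exp (-x) : ℝ) : ℂ)) (σ + y * I) =
      Complex.Gamma (pt σ y) := fun y => by
    rw [← GammaIntegral_eq_mellin, ← Complex.Gamma_eq_integral (by simpa using hσ), pt]
  have h := mellinInv_mellin_eq σ (fun x : ℝ => ((Real.exp (-x) : ℝ) : ℂ)) hu
    ((GammaIntegral_convergent (s := (σ : ℂ)) (by simpa using hσ)).congr_fun
      (fun x _ => by simp [mul_comm]) measurableSet_Ioi)
    ((integrable_Gamma_pt N).congr (Eventually.of_forall fun y => (hm y).symm))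
    (by fun_prop)
  rw [mellinInv] at h
  simp only [hm, smul_eq_mul, Complex.real_smul] at h
  rw [← h]
  push_cast
  field_simp
  rfl

/-- `∑ a n n^i exp (-n z)`, from `n = 1`. -/
def expTerm (a : ℕ → ℂ) (i : ℕ) (z : ℂ) (n : ℕ) : ℂ :=
  if n = 0 then 0 else a n * (n : ℂ) ^ i * cexp (-(n * z))

/-- The exponential series. -/
def expSeries (a : ℕ → ℂ) (i : ℕ) (z : ℂ) : ℂ := ∑' n, expTerm a i z n

variable {a : ℕ → ℂ}

theorem exists_coeff_le (h : LSeriesSummable a (2 : ℂ)) :
    ∃ S : ℝ, ∀ n : ℕ, n ≠ 0 → ‖a n‖ ≤ S * (n : ℝ) ^ 2 := by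
  refine ⟨∑' n, ‖LSeries.term a 2 n‖, fun n hn => ?_⟩
  have h1 := h.norm.le_tsum n fun j _ => norm_nonneg _
  rw [LSeries.norm_term_eq, if_neg hn, div_le_iff₀ (by positivity)] at h1
  simpa using h1

theorem exists_summable_majorant (h : LSeriesSummable a (2 : ℂ)) (i : ℕ) {ε : ℝ} (hε : 0 < ε) :
    ∃ u : ℕ → ℝ, Summable u ∧ ∀ (n : ℕ) (z : ℂ), ε ≤ z.re → ‖expTerm a i z n‖ ≤ u n := by
  obtain ⟨S, hS⟩ := exists_coeff_le h
  refine ⟨fun n => |S| * ((n : ℝ) ^ (i + 2) * Real.exp (-ε * n)),
    (Real.summable_pow_mul_exp_neg_nat_mul (i + 2) hε).mul_left _, fun n z hz => ?_⟩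
  unfold expTerm
  split_ifs with hn
  · rw [norm_zero]
    positivity
  rw [norm_mul, norm_mul, norm_pow, Complex.norm_natCast, Complex.norm_exp]
  calc ‖a n‖ * (n : ℝ) ^ i * Real.exp (-((n : ℂ) * z)).re
      ≤ |S| * (n : ℝ) ^ 2 * (n : ℝ) ^ i * Real.exp (-ε * n) := by
        gcongr
        · exact (hS n hn).trans (mul_le_mul_of_nonneg_right (le_abs_self S) (sq_nonneg _))
        · simp only [neg_re, mul_re, natCast_re, natCast_im, zero_mul, sub_zero]
          nlinarith [Nat.cast_nonneg (α := ℝ) n]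
    _ = _ := by ring

theorem differentiableOn_expSeries (h : LSeriesSummable a (2 : ℂ)) (i : ℕ) :
    DifferentiableOn ℂ (expSeries a i) {z | 0 < z.re} := by
  intro z hz
  have hz' : 0 < z.re := hz
  obtain ⟨u, hu, hle⟩ := exists_summable_majorant h i (ε := z.re / 2) (by linarith)
  have hU : IsOpen {w : ℂ | z.re / 2 < w.re} := isOpen_lt continuous_const Complex.continuous_re
  have hd : DifferentiableOn ℂ (expSeries a i) {w : ℂ | z.re / 2 < w.re} := by
    refine differentiableOn_tsum_of_summable_norm hu (fun n => ?_) hU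
      fun n w hw => hle n w (le_of_lt hw)
    unfold expTerm
    split_ifs
    · exact differentiableOn_const 0
    · exact (((differentiable_id.const_mul (n : ℂ)).neg).cexp.const_mul _).differentiableOn
  exact ((hd z (show z.re / 2 < z.re by linarith)).differentiableAt
    (hU.mem_nhds (show z.re / 2 < z.re by linarith))).differentiableWithinAt

theorem integral_series_inversion {h : ∀ s : ℂ, 1 < s.re → LSeriesSummable a s} (i : ℕ) {x : ℝ}
    (hx : 0 < x) :
    ∫ y : ℝ, LSeries a (pt (5 / 2) y) * Complex.Gamma (pt (5 / 2) y + i) *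
        (x : ℂ) ^ (-(pt (5 / 2) y)) = 2 * π * ((x : ℂ) ^ i * expSeries a i x) := by
  set F : ℕ → ℝ → ℂ := fun n y => LSeries.term a (pt (5 / 2) y) n *
    Complex.Gamma (pt (5 / 2) y + i) * (x : ℂ) ^ (-(pt (5 / 2) y))
  have e : ∀ y : ℝ, pt (5 / 2) y + i = pt (1 / 2 + (2 + i : ℕ)) y := fun y => by
    simp only [pt]; push_cast; ring
  have hnorm : ∀ n y, ‖F n y‖ =
      ‖LSeries.term a (((5 / 2 : ℝ)) : ℂ) n‖ * x ^ (-(5 / 2) : ℝ) *
        ‖Complex.Gamma (pt (1 / 2 + (2 + i : ℕ)) y)‖ := fun n y => by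
    simp only [F, norm_mul, e, norm_cpow_eq_rpow_re_of_pos hx, neg_re, pt_re]
    rw [LSeries.norm_term_eq, LSeries.norm_term_eq, pt_re, ofReal_re]
    ring
  have hint : ∀ n, Integrable (F n) := fun n => by
    refine ((integrable_Gamma_pt (2 + i)).norm.const_mul
      (‖LSeries.term a (((5 / 2 : ℝ)) : ℂ) n‖ * x ^ (-(5 / 2) : ℝ))).mono'
      (Continuous.aestronglyMeasurable ?_) (Eventually.of_forall fun y => (hnorm n y).le)
    simp only [F, e]
    refine (Continuous.mul ?_ (continuous_Gamma_pt (by positivity))).mul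
      (((continuous_pt _).neg).const_cpow (Or.inl (ofReal_ne_zero.2 hx.ne')))
    rcases eq_or_ne n 0 with rfl | hn
    · simp only [LSeries.term_zero]
      exact continuous_const
    · simp only [LSeries.term_of_ne_zero hn]
      exact continuous_const.div ((continuous_pt _).const_cpow (Or.inl (Nat.cast_ne_zero.2 hn)))
        fun y => cpow_ne_zero_iff.2 (Or.inl (Nat.cast_ne_zero.2 hn))
  have hs := h ((5 / 2 : ℝ) : ℂ) (by norm_num)
  have hsum : Summable fun n => ∫ y, ‖F n y‖ := by
    simp only [hnorm, integral_const_mul]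
    exact (hs.norm.mul_right _).mul_right _
  have key := integral_tsum_of_summable_integral_norm hint hsum
  have hpoint : ∀ y, ∑' n, F n y = LSeries a (pt (5 / 2) y) *
      Complex.Gamma (pt (5 / 2) y + i) * (x : ℂ) ^ (-(pt (5 / 2) y)) := fun y => by
    simp only [F, tsum_mul_right]
    rfl
  simp only [hpoint] at key
  rw [← key, expSeries, ← tsum_mul_left, ← tsum_mul_left]
  refine tsum_congr fun n => ?_
  rcases eq_or_ne n 0 with rfl | hn
  · simp [F, expTerm]
  have hn0 : (0 : ℝ) < n := Nat.cast_pos.2 (Nat.pos_of_ne_zero hn)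
  have hn' : (n : ℂ) ≠ 0 := Nat.cast_ne_zero.2 hn
  have hx' : (x : ℂ) ≠ 0 := ofReal_ne_zero.2 hx.ne'
  have hFy : ∀ y, F n y = a n * (n : ℂ) ^ i * (x : ℂ) ^ i *
      (((n * x : ℝ) : ℂ) ^ (-(pt (1 / 2 + (2 + i : ℕ)) y)) *
        Complex.Gamma (pt (1 / 2 + (2 + i : ℕ)) y)) := fun y => by
    simp only [F, LSeries.term_of_ne_zero hn, ← e, ofReal_mul, ofReal_natCast]
    rw [show ((n : ℂ) * (x : ℂ)) ^ (-(pt (5 / 2) y + i)) =
        (n : ℂ) ^ (-(pt (5 / 2) y + i)) * (x : ℂ) ^ (-(pt (5 / 2) y + i)) by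
      rw [← ofReal_natCast, mul_cpow_ofReal_nonneg hn0.le hx.le]]
    rw [cpow_neg, cpow_neg, cpow_neg, cpow_add _ _ hn', cpow_add _ _ hx', cpow_natCast,
      cpow_natCast]
    field_simp
  simp only [hFy, integral_const_mul]
  rw [integral_Gamma_inversion _ (mul_pos hn0 hx), expTerm, if_neg hn]
  push_cast
  ring

theorem Gamma_add_nat_succ {w : ℂ} (hw : 0 < w.re) (i : ℕ) :
    (w + i) * Complex.Gamma (w + i) = Complex.Gamma (w + (i + 1 : ℕ)) := by
  rw [← Complex.Gamma_add_one (w + i) fun e => by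
    have h := congrArg Complex.re e
    simp at h
    linarith [Nat.cast_nonneg (α := ℝ) i]]
  push_cast
  ring_nf

/-- `(w - 1)^m Γ w` as a combination of `Γ (w + i)`. -/
theorem exists_polyCoeff : ∀ m : ℕ, ∃ c : ℕ → ℂ, c m = 1 ∧ (∀ i, m < i → c i = 0) ∧
    ∀ w : ℂ, 0 < w.re → (w - 1) ^ m * Complex.Gamma w =
      ∑ i ∈ Finset.range (m + 1), c i * Complex.Gamma (w + i)
  | 0 => ⟨fun i => if i = 0 then 1 else 0, rfl, fun i hi => if_neg (by omega), fun w _ => by simp⟩
  | m + 1 => by
    obtain ⟨c, hcm, hc0, hc⟩ := exists_polyCoeff m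
    refine ⟨fun i => (if i = 0 then 0 else c (i - 1)) - ((i : ℂ) + 1) * c i, ?_, fun i hi => ?_,
      fun w hw => ?_⟩
    · simp [hcm, hc0 (m + 1) (Nat.lt_succ_self m)]
    · have h1 := hc0 i (by omega)
      have h2 := hc0 (i - 1) (by omega)
      simp [h1, h2]
    · rw [pow_succ', mul_assoc, hc w hw, Finset.mul_sum]
      simp only [sub_mul, Finset.sum_sub_distrib]
      rw [Finset.sum_range_succ' (fun i => (if i = 0 then 0 else c (i - 1)) *
        Complex.Gamma (w + i)) (m + 1)]
      rw [Finset.sum_range_succ (fun i => ((i : ℂ) + 1) * c i * Complex.Gamma (w + i)) (m + 1),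
        hc0 (m + 1) (Nat.lt_succ_self m)]
      simp only [Nat.succ_ne_zero, if_false, if_true, zero_mul, mul_zero, add_zero,
        Nat.add_sub_cancel]
      rw [← Finset.sum_sub_distrib, ← Finset.sum_sub_distrib]
      refine Finset.sum_congr rfl fun i _ => ?_
      linear_combination c i * Gamma_add_nat_succ hw i

/-- The coefficients of `(w - 1)^m Γ w`. -/
def polyCoeff (m : ℕ) : ℕ → ℂ := Classical.choose (exists_polyCoeff m)

theorem polyCoeff_self (m : ℕ) : polyCoeff m m = 1 :=
  (Classical.choose_spec (exists_polyCoeff m)).1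

theorem polyCoeff_spec (m : ℕ) {w : ℂ} (hw : 0 < w.re) :
    (w - 1) ^ m * Complex.Gamma w =
      ∑ i ∈ Finset.range (m + 1), polyCoeff m i * Complex.Gamma (w + i) :=
  (Classical.choose_spec (exists_polyCoeff m)).2.2 w hw

/-- The combination of exponential series with Mellin transform `E s Γ s`. -/
def weightedSeries (a : ℕ → ℂ) (m : ℕ) (z : ℂ) : ℂ :=
  ∑ i ∈ Finset.range (m + 1), polyCoeff m i * (z ^ i * expSeries a i z)

theorem differentiableOn_weightedSeries (h : LSeriesSummable a (2 : ℂ)) (m : ℕ) :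
    DifferentiableOn ℂ (weightedSeries a m) {z | 0 < z.re} := by
  refine DifferentiableOn.fun_sum fun i _ => DifferentiableOn.const_mul ?_ _
  exact (differentiable_pow i).differentiableOn.mul (differentiableOn_expSeries h i)

variable {m : ℕ} {E : ℂ → ℂ} {r : ℕ} {lam : Fin r → ℝ} {mu : Fin r → ℂ} {Q : ℝ} {omega : ℂ}

/-- The integrand on the first line. -/
def lineFn (E : ℂ → ℂ) (k : ℕ) (x : ℝ) (y : ℝ) : ℂ :=
  E (pt (5 / 2) y) * Complex.Gamma (pt (5 / 2) y + k) * (x : ℂ) ^ (-(pt (5 / 2) y + k))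

/-- Its integral. -/
def lineIntegral (E : ℂ → ℂ) (k : ℕ) (x : ℝ) : ℂ := ∫ y : ℝ, lineFn E k x y

theorem continuous_lineFn (hE : Continuous E) (k : ℕ) {x : ℝ} (hx : 0 < x) :
    Continuous (lineFn E k x) := by
  have e : ∀ y : ℝ, pt (5 / 2) y + k = pt (5 / 2 + k) y := fun y => by
    simp only [pt]; push_cast; ring
  unfold lineFn
  simp only [e]
  exact ((hE.comp (continuous_pt _)).mul (continuous_Gamma_pt (by positivity))).mul
    ((continuous_pt _).neg.const_cpow (Or.inl (ofReal_ne_zero.2 hx.ne')))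

theorem HasFunctionalEquation.exists_norm_right (h : HasFunctionalEquation a m E lam mu Q omega)
    (k : ℕ) : ∃ C : ℝ, 0 ≤ C ∧ ∀ y : ℝ,
      ‖E (pt (5 / 2) y) * Complex.Gamma (pt (5 / 2) y + k)‖ ≤
        C * (1 + |y|) ^ (m + (2 + k)) * Real.exp (-(π / 2 * |y|)) := by
  obtain ⟨C, hC0, hC⟩ := exists_norm_Gamma_line (2 + k)
  set S := ∑' n, ‖LSeries.term a ((3 / 2 : ℝ) : ℂ) n‖
  refine ⟨2 ^ m * S * C, by positivity, fun y => ?_⟩
  have e : pt (5 / 2) y + k = (((1 / 2 : ℝ) + (2 + k : ℕ) : ℝ) : ℂ) + y * I := by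
    simp only [pt]; push_cast; ring
  rw [norm_mul, h.eq_series _ (by rw [pt_re]; norm_num), norm_mul, norm_pow, e,
    show π / 2 * |y| = π * |y| / 2 by ring]
  have h1 : ‖pt (5 / 2) y - 1‖ ≤ 2 * (1 + |y|) := by
    refine (norm_le_abs_re_add_abs_im _).trans ?_
    simp only [sub_re, sub_im, pt_re, pt_im, one_re, one_im, sub_zero]
    norm_num
    linarith [abs_nonneg y]
  have h2 : ‖LSeries a (pt (5 / 2) y)‖ ≤ S :=
    norm_lSeries_le (h.summable _ (by norm_num)) (by rw [pt_re]; norm_num)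
  refine (mul_le_mul (mul_le_mul (pow_le_pow_left₀ (norm_nonneg _) h1 m) h2 (norm_nonneg _)
    (by positivity)) (hC y) (norm_nonneg _) (by positivity)).trans_eq ?_
  rw [mul_pow, pow_add _ m]
  ring

theorem norm_lineFn (E : ℂ → ℂ) (k : ℕ) {x : ℝ} (hx : 0 < x) (y : ℝ) :
    ‖lineFn E k x y‖ =
      ‖E (pt (5 / 2) y) * Complex.Gamma (pt (5 / 2) y + k)‖ * x ^ (-(5 / 2 + k) : ℝ) := by
  rw [lineFn, norm_mul, norm_cpow_eq_rpow_re_of_pos hx, neg_re, add_re, pt_re, natCast_re]

theorem HasFunctionalEquation.integrable_lineFn (h : HasFunctionalEquation a m E lam mu Q omega)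
    (k : ℕ) {x : ℝ} (hx : 0 < x) : Integrable (lineFn E k x) := by
  obtain ⟨C, hC0, hC⟩ := h.exists_norm_right k
  refine integrable_of_decay (continuous_lineFn h.differentiable.continuous k hx) (m + (2 + k))
    (C := C * x ^ (-(5 / 2 + k) : ℝ)) (ε := π / 2) (by positivity) fun y => ?_
  rw [norm_lineFn E k hx]
  exact (mul_le_mul_of_nonneg_right (hC y) (Real.rpow_nonneg hx.le _)).trans_eq (by ring)

theorem HasFunctionalEquation.hasDerivAt_lineIntegral
    (h : HasFunctionalEquation a m E lam mu Q omega) (k : ℕ) {x : ℝ} (hx : 0 < x) :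
    HasDerivAt (lineIntegral E k) (-lineIntegral E (k + 1) x) x := by
  obtain ⟨C, hC0, hC⟩ := h.exists_norm_right (k + 1)
  obtain ⟨B, hB0, hB⟩ := exists_poly_mul_exp_le (m + (2 + (k + 1))) (ε := π / 2) (by positivity)
  rw [lineIntegral, ← integral_neg]
  refine (hasDerivAt_integral_of_dominated_loc_of_deriv_le
    (F := fun x y => lineFn E k x y) (F' := fun x y => -lineFn E (k + 1) x y)
    (bound := fun y => (x / 2) ^ (-(5 / 2 + (k + 1 : ℕ)) : ℝ) * (C * B) * (1 + y ^ 2)⁻¹)
    (Ioi_mem_nhds (show x / 2 < x by linarith))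
    ((eventually_gt_nhds hx).mono fun z hz =>
      (continuous_lineFn h.differentiable.continuous k hz).aestronglyMeasurable)
    (h.integrable_lineFn k hx)
    (continuous_lineFn h.differentiable.continuous (k + 1) hx).neg.aestronglyMeasurable
    (Eventually.of_forall fun y z hz => ?_) (integrable_inv_one_add_sq.const_mul _)
    (Eventually.of_forall fun y z hz => ?_)).2
  · have hz' : x / 2 < z := hz
    rw [norm_neg, norm_lineFn E (k + 1) (by linarith)]
    calc ‖E (pt (5 / 2) y) * Complex.Gamma (pt (5 / 2) y + (k + 1 : ℕ))‖ *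
          z ^ (-(5 / 2 + (k + 1 : ℕ)) : ℝ)
        ≤ (C * (1 + |y|) ^ (m + (2 + (k + 1))) * Real.exp (-(π / 2 * |y|))) *
          (x / 2) ^ (-(5 / 2 + (k + 1 : ℕ)) : ℝ) := by
          refine mul_le_mul (hC y) (Real.rpow_le_rpow_of_nonpos (by linarith) hz'.le ?_)
            (Real.rpow_nonneg (by linarith) _) (by positivity)
          linarith [Nat.cast_nonneg (α := ℝ) (k + 1)]
      _ ≤ (C * (B * (1 + y ^ 2)⁻¹)) * (x / 2) ^ (-(5 / 2 + (k + 1 : ℕ)) : ℝ) := by
          rw [mul_assoc C]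
          exact mul_le_mul_of_nonneg_right (mul_le_mul_of_nonneg_left (hB y) hC0)
            (Real.rpow_nonneg (by linarith) _)
      _ = _ := by ring
  · have hz' : x / 2 < z := hz
    have hz0 : z ≠ 0 := by linarith
    set w := pt (5 / 2) y + k
    have hw : -w ≠ 0 := fun e => by
      have h := congrArg Complex.re e
      simp [w, pt] at h
      linarith [Nat.cast_nonneg (α := ℝ) k]
    have hd := (hasDerivAt_ofReal_cpow_const hz0 hw).const_mul
      (E (pt (5 / 2) y) * Complex.Gamma w)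
    refine hd.congr_deriv ?_
    rw [lineFn, ← Gamma_add_nat_succ (by rw [pt_re]; norm_num)]
    simp only [w]
    push_cast
    ring_nf

theorem HasFunctionalEquation.lineIntegral_zero (h : HasFunctionalEquation a m E lam mu Q omega)
    {x : ℝ} (hx : 0 < x) : lineIntegral E 0 x = 2 * π * weightedSeries a m x := by
  have hint : ∀ i : ℕ, Integrable fun y : ℝ => LSeries a (pt (5 / 2) y) *
      Complex.Gamma (pt (5 / 2) y + i) * (x : ℂ) ^ (-(pt (5 / 2) y)) := fun i => by
    have e : ∀ y : ℝ, pt (5 / 2) y + i = pt (1 / 2 + (2 + i : ℕ)) y := fun y => by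
      simp only [pt]; push_cast; ring
    obtain ⟨C, hC0, hC⟩ := exists_norm_Gamma_line (2 + i)
    set S := ∑' n, ‖LSeries.term a ((3 / 2 : ℝ) : ℂ) n‖
    refine integrable_of_decay (C := S * C * x ^ (-(5 / 2) : ℝ)) ?_ (2 + i) (ε := π / 2)
      (by positivity) fun y => ?_
    · simp only [e]
      refine (Continuous.mul ?_ (continuous_Gamma_pt (by positivity))).mul
        ((continuous_pt _).neg.const_cpow (Or.inl (ofReal_ne_zero.2 hx.ne')))
      refine continuous_iff_continuousAt.2 fun y => ?_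
      have habs : LSeries.abscissaOfAbsConv a < (pt (5 / 2) y).re :=
        lt_of_le_of_lt (LSeries.abscissaOfAbsConv_le_of_forall_lt_LSeriesSummable (x := 1)
          fun z hz => h.summable z (by simpa using hz))
          (by rw [pt_re]; norm_num [← EReal.coe_one])
      exact ((LSeries_analyticOnNhd a) _ habs).continuousAt.comp (continuous_pt _).continuousAt
    · rw [norm_mul, norm_mul, norm_cpow_eq_rpow_re_of_pos hx, neg_re, pt_re, e,
        show π / 2 * |y| = π * |y| / 2 by ring]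
      calc ‖LSeries a (pt (5 / 2) y)‖ * ‖Complex.Gamma (pt (1 / 2 + (2 + i : ℕ)) y)‖ *
            x ^ (-(5 / 2) : ℝ)
          ≤ S * (C * (1 + |y|) ^ (2 + i) * Real.exp (-(π * |y| / 2))) * x ^ (-(5 / 2) : ℝ) := by
            refine mul_le_mul_of_nonneg_right (mul_le_mul
              (norm_lSeries_le (h.summable _ (by norm_num)) (by rw [pt_re]; norm_num)) (hC y)
              (norm_nonneg _) (tsum_nonneg fun n => norm_nonneg _)) (Real.rpow_nonneg hx.le _)
        _ = _ := by ring
  have e : ∀ y, lineFn E 0 x y = ∑ i ∈ Finset.range (m + 1), polyCoeff m i *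
      (LSeries a (pt (5 / 2) y) * Complex.Gamma (pt (5 / 2) y + i) *
        (x : ℂ) ^ (-(pt (5 / 2) y))) := fun y => by
    simp only [lineFn, Nat.cast_zero, add_zero, h.eq_series _ (show 1 < (pt (5 / 2) y).re by
      rw [pt_re]; norm_num)]
    rw [show ∀ p q s t : ℂ, p * q * s * t = (p * s) * (q * t) from fun p q s t => by ring,
      polyCoeff_spec m (by rw [pt_re]; norm_num), Finset.sum_mul]
    exact Finset.sum_congr rfl fun i _ => by ring
  rw [lineIntegral]
  simp only [e]
  rw [integral_finsetSum _ fun i _ => (hint i).const_mul _, weightedSeries, Finset.mul_sum]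
  refine Finset.sum_congr rfl fun i _ => ?_
  rw [integral_const_mul, integral_series_inversion (h := h.summable) i hx]
  ring

/-- **The derivatives of the combination on the positive axis.** -/
theorem HasFunctionalEquation.iteratedDeriv_weightedSeries
    (h : HasFunctionalEquation a m E lam mu Q omega) (k : ℕ) : ∀ {x : ℝ}, 0 < x →
      iteratedDeriv k (weightedSeries a m) x = (-1) ^ k * lineIntegral E k x / (2 * π) := by
  have hπ : (π : ℂ) ≠ 0 := ofReal_ne_zero.2 Real.pi_ne_zero
  have hA : AnalyticOnNhd ℂ (weightedSeries a m) {z | 0 < z.re} :=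
    (differentiableOn_weightedSeries (h.summable 2 (by norm_num)) m).analyticOnNhd
      (isOpen_lt continuous_const Complex.continuous_re)
  induction k with
  | zero =>
    intro x hx
    rw [iteratedDeriv_zero, h.lineIntegral_zero hx]
    field_simp
  | succ k ih =>
    intro x hx
    have hd : HasDerivAt (iteratedDeriv k (weightedSeries a m))
        (iteratedDeriv (k + 1) (weightedSeries a m) x) (x : ℂ) := by
      rw [iteratedDeriv_succ, iteratedDeriv_eq_iterate]
      exact ((hA.iterated_deriv k) (x : ℂ) (by simpa using hx)).differentiableAt.hasDerivAt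
    have h1 := hd.comp_ofReal
    have h2 : HasDerivAt (fun y : ℝ => (-1 : ℂ) ^ k * lineIntegral E k y / (2 * π))
        ((-1) ^ k * -lineIntegral E (k + 1) x / (2 * π)) x :=
      ((h.hasDerivAt_lineIntegral k hx).const_mul _).div_const _
    rw [h1.unique (h2.congr_of_eventuallyEq ((eventually_gt_nhds hx).mono fun y hy => ih hy)),
      pow_succ]
    ring

end FA.DegreeGap

end
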