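import Fermat.Agent.DegreeGap.Periodic

/-!
# No degree between zero and one

The series converges everywhere, so it is bounded on a line far to the left; there the Gamma
factors of the functional equation force it to zero on the mirror line, and Bohr's mean kills the
coefficients. In degree zero the same mean compares the two sides.
-/

set_option autoImplicit false

noncomputable section

open Complex MeasureTheory Filter Set
open scoped Real Topology ComplexConjugate

namespace FA.DegreeGap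

variable {a : ℕ → ℂ} {m : ℕ} {E : ℂ → ℂ} {r : ℕ} {lam : Fin r → ℝ} {mu : Fin r → ℂ} {Q : ℝ}
  {omega : ℂ}

theorem HasFunctionalEquation.summable_all (h : HasFunctionalEquation a m E lam mu Q omega)
    (hd : degree lam < 1) (s : ℂ) : LSeriesSummable a s := by
  obtain ⟨M, hM⟩ := h.exists_decay hd 1
  set N := ⌈-s.re⌉₊
  refine ((Real.summable_pow_mul_exp_neg_nat_mul N one_pos).mul_left |M|).of_norm_bounded
    fun n => ?_
  rcases eq_or_ne n 0 with rfl | hn
  · simp
    positivity
  have hn1 : (1 : ℝ) ≤ n := Nat.one_le_cast.2 (Nat.pos_of_ne_zero hn)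
  rw [LSeries.norm_term_eq, if_neg hn, div_eq_mul_inv, ← Real.rpow_neg (Nat.cast_nonneg n)]
  have h1 : (n : ℝ) ^ (-s.re) ≤ (n : ℝ) ^ N := by
    rw [← Real.rpow_natCast]
    exact Real.rpow_le_rpow_of_exponent_le hn1 (Nat.le_ceil _)
  refine (mul_le_mul ((hM n hn).trans (mul_le_mul_of_nonneg_right (le_abs_self M)
    (Real.exp_nonneg _))) h1 (Real.rpow_nonneg (Nat.cast_nonneg n) _) (by positivity)).trans_eq ?_
  rw [neg_one_mul, one_mul]
  ring

theorem HasFunctionalEquation.abscissa_lt (h : HasFunctionalEquation a m E lam mu Q omega)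
    (hd : degree lam < 1) (s : ℂ) : LSeries.abscissaOfAbsConv a < s.re :=
  lt_of_le_of_lt (LSeries.abscissaOfAbsConv_le_of_forall_lt_LSeriesSummable (x := s.re - 1)
    fun y _ => h.summable_all hd y) (EReal.coe_lt_coe_iff.2 (sub_one_lt s.re))

theorem HasFunctionalEquation.eq_everywhere (h : HasFunctionalEquation a m E lam mu Q omega)
    (hd : degree lam < 1) (s : ℂ) : E s = (s - 1) ^ m * LSeries a s := by
  have hL : ∀ z : ℂ, AnalyticAt ℂ (LSeries a) z := fun z =>
    (LSeries_analyticOnNhd a) z (h.abscissa_lt hd z)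
  refine congrFun (AnalyticOnNhd.eq_of_eventuallyEq (𝕜 := ℂ) (z₀ := (2 : ℂ)) (f := E)
    (g := fun z => (z - 1) ^ m * LSeries a z) (fun z _ => h.differentiable.analyticAt z)
    (fun z _ => ((analyticAt_id.sub analyticAt_const).pow m).mul (hL z)) ?_) s
  exact eventually_of_mem ((isOpen_lt continuous_const Complex.continuous_re).mem_nhds
    (show (2 : ℂ) ∈ {z : ℂ | 1 < z.re} by simp)) fun z hz => h.eq_series z hz

theorem HasFunctionalEquation.lSeries_left (h : HasFunctionalEquation a m E lam mu Q omega)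
    (hd : degree lam < 1) {s : ℂ} (hs : s.re < 0) : LSeries a s =
      omega * conj (gammaFactor lam mu Q (1 - conj s) * LSeries a (1 - conj s)) *
        (gammaFactor lam mu Q s)⁻¹ := by
  have h1 := h.functional_equation s hs
  rw [h.eq_everywhere hd] at h1
  refine mul_left_cancel₀ (pow_ne_zero m fun e => ?_) h1
  rw [sub_eq_zero] at e
  rw [e] at hs
  norm_num at hs

theorem one_sub_conj_pt (σ t : ℝ) : 1 - conj (pt σ t) = pt (1 - σ) t := by
  apply Complex.ext <;> simp [pt]

theorem term_pt_mul (a : ℕ → ℂ) (σ t θ : ℝ) (j : ℕ) :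
    LSeries.term a (pt σ t) j * cexp ((θ : ℂ) * I * t) =
      LSeries.term a (σ : ℂ) j * cexp (((θ - Real.log j : ℝ) : ℂ) * I * t) := by
  rcases eq_or_ne j 0 with rfl | hj
  · simp
  have hj' : (j : ℂ) ≠ 0 := Nat.cast_ne_zero.2 hj
  rw [LSeries.term_of_ne_zero hj, LSeries.term_of_ne_zero hj, pt, cpow_add _ _ hj',
    cpow_def_of_ne_zero hj' ((t : ℂ) * I), ← ofReal_natCast, ← ofReal_log (Nat.cast_nonneg j),
    div_mul_eq_div_div, div_eq_mul_inv _ (cexp _), ← Complex.exp_neg, mul_assoc, ← Complex.exp_add]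
  congr 2
  push_cast
  ring

/-- The mean of a series on a line picks one coefficient. -/
theorem tendsto_mean_line {σ : ℝ} (hs : LSeriesSummable a (σ : ℂ)) {n : ℕ} (hn : n ≠ 0) :
    Tendsto (fun T : ℝ => (T : ℂ)⁻¹ * ∫ t in (0 : ℝ)..T,
      LSeries a (pt σ t) * cexp ((Real.log n : ℂ) * I * t)) atTop
        (𝓝 (LSeries.term a (σ : ℂ) n)) := by
  have h := tendsto_bohr_mean hs.norm fun j => Real.log n - Real.log j
  rw [tsum_eq_single n fun j hj => ?_] at h
  · rw [if_pos (sub_self _)] at h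
    refine h.congr fun T => ?_
    congr 1
    refine intervalIntegral.integral_congr fun t _ => ?_
    simp only [LSeries, ← tsum_mul_right, term_pt_mul]
  · rcases eq_or_ne j 0 with rfl | hj0
    · simp
    rw [if_neg]
    intro e
    exact hj (Nat.cast_injective (Real.log_injOn_pos (Set.mem_Ioi.2 (Nat.cast_pos.2
      (Nat.pos_of_ne_zero hj0))) (Set.mem_Ioi.2 (Nat.cast_pos.2 (Nat.pos_of_ne_zero hn)))
        (sub_eq_zero.1 e).symm))

theorem HasFunctionalEquation.tendsto_zero (h : HasFunctionalEquation a m E lam mu Q omega)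
    (hd0 : 0 < degree lam) (hd : degree lam < 1) :
    ∃ σ : ℝ, Tendsto (fun t : ℝ => ‖LSeries a (pt σ t)‖) atTop (𝓝 0) := by
  have hr : Nonempty (Fin r) := by
    by_contra hne
    rw [not_nonempty_iff] at hne
    simp [degree] at hd0
  obtain ⟨j₀⟩ := hr
  set S₀ := ∑ j, ((mu j).re + 1) / lam j
  have hS0 : 0 ≤ S₀ :=
    Finset.sum_nonneg fun j _ => div_nonneg (by linarith [h.mu_re j]) (h.lam_pos j).le
  set σ := -(S₀ + 1)
  have hA : ∀ j, 1 ≤ lam j * (1 - σ) + (mu j).re ∧ lam j * σ + (mu j).re ≤ 0 := fun j => by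
    have h1 : (mu j).re + 1 ≤ lam j * S₀ := by
      have h2 := Finset.single_le_sum (f := fun j => ((mu j).re + 1) / lam j)
        (fun i _ => div_nonneg (by linarith [h.mu_re i]) (h.lam_pos i).le) (Finset.mem_univ j)
      rw [div_le_iff₀ (h.lam_pos j)] at h2
      linarith
    have := h.lam_pos j
    have := h.mu_re j
    constructor <;> simp only [σ] <;> linarith
  choose c hc hcb using fun j => exists_Gamma_ratio_lower (hA j).1 (hA j).2
  set S := ∑' n, ‖LSeries.term a (σ : ℂ) n‖
  set c₀ := Q ^ (1 - 2 * σ) * ∏ j, c j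
  have hc₀ : 0 < c₀ :=
    mul_pos (Real.rpow_pos_of_pos h.Q_pos _) (Finset.prod_pos fun j _ => hc j)
  refine ⟨1 - σ, squeeze_zero' (g := fun t : ℝ => S / c₀ / (lam j₀ * t + (mu j₀).im))
    (Eventually.of_forall fun t => norm_nonneg _) ?_ ?_⟩
  · have hev : ∀ᶠ t : ℝ in atTop, ∀ j, 1 ≤ lam j * t + (mu j).im :=
      eventually_all.2 fun j => (tendsto_atTop_add_const_right _ _
        (tendsto_id.const_mul_atTop (h.lam_pos j))).eventually_ge_atTop 1
    filter_upwards [hev] with t ht
    have hj₀ : 0 < lam j₀ * t + (mu j₀).im := lt_of_lt_of_le one_pos (ht j₀)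
    have hy : ∀ j (u : ℝ), (lam j : ℂ) * pt u t + mu j =
        ((lam j * u + (mu j).re : ℝ) : ℂ) + ((lam j * t + (mu j).im : ℝ) : ℂ) * I := fun j u => by
      apply Complex.ext <;> simp [pt]
    have hne : gammaFactor lam mu Q (pt σ t) ≠ 0 := by
      refine mul_ne_zero (cpow_ne_zero_iff.2 (Or.inl (ofReal_ne_zero.2 h.Q_pos.ne')))
        (Finset.prod_ne_zero_iff.2 fun j _ => norm_ne_zero_iff.1 (norm_Gamma_ne_zero_of_im ?_))
      rw [hy]
      simp only [add_im, ofReal_im, mul_im, ofReal_re, I_re, I_im, mul_one, mul_zero, add_zero,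
        zero_add]
      linarith [ht j]
    have hprod : c₀ * (lam j₀ * t + (mu j₀).im) * ‖gammaFactor lam mu Q (pt σ t)‖ ≤
        ‖gammaFactor lam mu Q (pt (1 - σ) t)‖ := by
      simp only [gammaFactor, norm_mul, norm_prod, norm_cpow_eq_rpow_re_of_pos h.Q_pos, pt_re, hy]
      have hstep : (∏ j, c j) * (lam j₀ * t + (mu j₀).im) *
          ∏ j, ‖Complex.Gamma (((lam j * σ + (mu j).re : ℝ) : ℂ) +
            ((lam j * t + (mu j).im : ℝ) : ℂ) * I)‖ ≤
          ∏ j, ‖Complex.Gamma (((lam j * (1 - σ) + (mu j).re : ℝ) : ℂ) +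
            ((lam j * t + (mu j).im : ℝ) : ℂ) * I)‖ := by
        refine le_trans ?_ (Finset.prod_le_prod (fun j _ =>
          mul_nonneg (mul_nonneg (hc j).le (abs_nonneg _)) (norm_nonneg _))
          fun j _ => hcb j _ ((ht j).trans (le_abs_self _)))
        rw [Finset.prod_mul_distrib, Finset.prod_mul_distrib]
        refine mul_le_mul_of_nonneg_right (mul_le_mul_of_nonneg_left ?_
          (Finset.prod_nonneg fun j _ => (hc j).le)) (Finset.prod_nonneg fun j _ => norm_nonneg _)
        rw [← Finset.mul_prod_erase _ _ (Finset.mem_univ j₀)]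
        have h1 : 1 ≤ ∏ j ∈ Finset.univ.erase j₀, |lam j * t + (mu j).im| :=
          Finset.one_le_prod fun j _ => (ht j).trans (le_abs_self _)
        exact (le_abs_self _).trans (le_mul_of_one_le_right (abs_nonneg _) h1)
      have hQ2 : Q ^ (1 - σ) = Q ^ (1 - 2 * σ) * Q ^ σ := by
        rw [← Real.rpow_add h.Q_pos]
        congr 1
        ring
      rw [hQ2]
      refine le_trans (le_of_eq (by simp only [c₀]; ring)) (mul_le_mul_of_nonneg_left hstep
        (mul_nonneg (Real.rpow_nonneg h.Q_pos.le _) (Real.rpow_nonneg h.Q_pos.le _)))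
    have hfe := congrArg norm
      (h.lSeries_left hd (s := pt σ t) (by rw [pt_re]; simp only [σ]; linarith))
    rw [one_sub_conj_pt, norm_mul, norm_mul, h.norm_omega, one_mul, Complex.norm_conj, norm_mul,
      norm_inv] at hfe
    have hS : ‖LSeries a (pt σ t)‖ ≤ S :=
      norm_lSeries_le (h.summable_all hd _) (by rw [pt_re])
    have hg := norm_pos_iff.2 hne
    rw [div_div, le_div_iff₀ (mul_pos hc₀ hj₀)]
    refine le_trans ?_ hS
    rw [hfe, ← div_eq_mul_inv, le_div_iff₀ hg]
    calc ‖LSeries a (pt (1 - σ) t)‖ * (c₀ * (lam j₀ * t + (mu j₀).im)) *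
          ‖gammaFactor lam mu Q (pt σ t)‖
        = ‖LSeries a (pt (1 - σ) t)‖ *
          (c₀ * (lam j₀ * t + (mu j₀).im) * ‖gammaFactor lam mu Q (pt σ t)‖) := by ring
      _ ≤ ‖LSeries a (pt (1 - σ) t)‖ * ‖gammaFactor lam mu Q (pt (1 - σ) t)‖ :=
          mul_le_mul_of_nonneg_left hprod (norm_nonneg _)
      _ = _ := mul_comm _ _
  · exact (tendsto_const_nhds (x := S / c₀)).div_atTop
      (tendsto_atTop_add_const_right _ _ (tendsto_id.const_mul_atTop (h.lam_pos j₀)))

/-- **No degree strictly between zero and one.** -/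
theorem HasFunctionalEquation.eq_zero_of_degree
    (h : HasFunctionalEquation a m E lam mu Q omega) (hd0 : 0 < degree lam) (hd : degree lam < 1)
    {n : ℕ} (hn : n ≠ 0) : a n = 0 := by
  obtain ⟨σ, hσ⟩ := h.tendsto_zero hd0 hd
  have hmean := tendsto_mean_line (h.summable_all hd (σ : ℂ)) hn
  have hzero : Tendsto (fun T : ℝ => (T : ℂ)⁻¹ * ∫ t in (0 : ℝ)..T,
      LSeries a (pt σ t) * cexp ((Real.log n : ℂ) * I * t)) atTop (𝓝 0) := by
    set g : ℝ → ℂ := fun t => LSeries a (pt σ t) * cexp ((Real.log n : ℂ) * I * t)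
    have hgn : ∀ t, ‖g t‖ = ‖LSeries a (pt σ t)‖ := fun t => by
      simp only [g]
      rw [norm_mul, show (Real.log n : ℂ) * I * t = ((Real.log n * t : ℝ) : ℂ) * I by
        push_cast; ring, Complex.norm_exp_ofReal_mul_I, mul_one]
    set S := ∑' j, ‖LSeries.term a (σ : ℂ) j‖
    have hgS : ∀ t, ‖g t‖ ≤ S := fun t => by
      rw [hgn]
      exact norm_lSeries_le (h.summable_all hd _) (by rw [pt_re])
    have hgc : Continuous g := by
      refine Continuous.mul (continuous_iff_continuousAt.2 fun t => ?_) (by fun_prop)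
      exact ((LSeries_analyticOnNhd a) _ (h.abscissa_lt hd _)).continuousAt.comp
        (continuous_pt σ).continuousAt
    rw [NormedAddGroup.tendsto_nhds_zero]
    intro ε hε
    obtain ⟨T₀, hT₀⟩ := eventually_atTop.1
      (hσ.eventually (Iic_mem_nhds (show (0 : ℝ) < ε / 2 by linarith)))
    set T₁ := max T₀ 1
    have hT₁ : 0 < T₁ := lt_max_of_lt_right one_pos
    have hS0 : 0 ≤ S := tsum_nonneg fun _ => norm_nonneg _
    filter_upwards [eventually_gt_atTop T₁, eventually_gt_atTop (S * T₁ * 2 / ε)] with T hT1 hT2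
    have hT0 : 0 < T := hT₁.trans hT1
    rw [norm_mul, norm_inv, Complex.norm_real, Real.norm_of_nonneg hT0.le,
      ← intervalIntegral.integral_add_adjacent_intervals (hgc.intervalIntegrable 0 T₁)
        (hgc.intervalIntegrable T₁ T)]
    have h1 : ‖∫ t in (0 : ℝ)..T₁, g t‖ ≤ S * |T₁ - 0| :=
      intervalIntegral.norm_integral_le_of_norm_le_const fun t _ => hgS t
    have h2 : ‖∫ t in T₁..T, g t‖ ≤ ε / 2 * |T - T₁| := by
      refine intervalIntegral.norm_integral_le_of_norm_le_const fun t ht => ?_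
      rw [uIoc_of_le hT1.le] at ht
      rw [hgn]
      exact hT₀ t ((le_max_left _ _).trans ht.1.le)
    rw [sub_zero, abs_of_pos hT₁] at h1
    rw [abs_of_pos (sub_pos.2 hT1)] at h2
    rw [inv_mul_lt_iff₀ hT0]
    rw [div_lt_iff₀ hε] at hT2
    have h3 : 0 < ε * T₁ := mul_pos hε hT₁
    linarith [norm_add_le (∫ t in (0 : ℝ)..T₁, g t) (∫ t in T₁..T, g t)]
  have := tendsto_nhds_unique hmean hzero
  rw [LSeries.term_of_ne_zero hn, div_eq_zero_iff] at this
  exact this.resolve_right (cpow_ne_zero_iff.2 (Or.inl (Nat.cast_ne_zero.2 hn)))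

/-- **Degree zero**: only the divisors of `Q ^ 2` occur, in pairs. -/
theorem exists_partner {lam : Fin 0 → ℝ} {mu : Fin 0 → ℂ}
    (h : HasFunctionalEquation a m E lam mu Q omega) {n : ℕ} (hn : n ≠ 0) (ha : a n ≠ 0) :
    ∃ j : ℕ, a j ≠ 0 ∧ ((n * j : ℕ) : ℝ) = Q ^ 2 := by
  by_contra hno
  push Not at hno
  have hd : degree lam < 1 := by simp [degree]
  have hQ := h.Q_pos
  have hL : ∀ t : ℝ, LSeries a (pt (-1) t) * cexp ((Real.log n : ℂ) * I * t) =
      ∑' j, omega * (Q : ℂ) ^ 3 * conj (LSeries.term a ((2 : ℝ) : ℂ) j) *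
        cexp (((Real.log n - 2 * Real.log Q + Real.log j : ℝ) : ℂ) * I * t) := by
    intro t
    have hgf : ∀ s : ℂ, gammaFactor lam mu Q s = (Q : ℂ) ^ s := fun s => by simp [gammaFactor]
    rw [h.lSeries_left hd (by rw [pt_re]; norm_num), one_sub_conj_pt, hgf, hgf, map_mul,
      LSeries, Complex.conj_tsum, ← tsum_mul_left, ← tsum_mul_left, ← tsum_mul_right,
      ← tsum_mul_right]
    refine tsum_congr fun j => ?_
    have hQ' : (Q : ℂ) ≠ 0 := ofReal_ne_zero.2 hQ.ne'
    have hQc : conj ((Q : ℂ) ^ pt (1 - -1) t) * ((Q : ℂ) ^ pt (-1) t)⁻¹ =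
        (Q : ℂ) ^ 3 * cexp (((-2 * Real.log Q : ℝ) : ℂ) * I * t) := by
      rw [← cpow_neg, cpow_def_of_ne_zero hQ', cpow_def_of_ne_zero hQ', ← Complex.exp_conj,
        ← ofReal_log hQ.le, ← Complex.exp_add,
        show (Q : ℂ) ^ 3 = cexp ((Real.log Q : ℂ) * 3) by
          rw [mul_comm, ← Nat.cast_ofNat (R := ℂ) (n := 3), Complex.exp_nat_mul, ← ofReal_exp,
            Real.exp_log hQ],
        ← Complex.exp_add]
      congr 1
      simp only [pt, map_mul, map_add, conj_ofReal, conj_I]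
      push_cast
      ring
    have h2 : conj (LSeries.term a (pt (1 - -1) t) j) =
        conj (LSeries.term a ((2 : ℝ) : ℂ) j) * cexp ((Real.log j : ℂ) * I * t) := by
      have h3 := term_pt_mul a (1 - -1) t 0 j
      rw [ofReal_zero, zero_mul, zero_mul, Complex.exp_zero, mul_one, zero_sub] at h3
      rw [h3, map_mul, ← Complex.exp_conj, show (1 : ℝ) - -1 = 2 by norm_num]
      congr 2
      simp only [map_mul, conj_ofReal, conj_I]
      push_cast
      ring
    rw [h2, show ((Real.log n - 2 * Real.log Q + Real.log j : ℝ) : ℂ) * I * t =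
      (((-2 * Real.log Q : ℝ) : ℂ) * I * t) +
        (((Real.log j : ℂ) * I * t) + (Real.log n : ℂ) * I * t) by push_cast; ring,
      Complex.exp_add, Complex.exp_add]
    linear_combination (omega * conj (LSeries.term a ((2 : ℝ) : ℂ) j) *
      cexp ((Real.log j : ℂ) * I * t) * cexp ((Real.log n : ℂ) * I * t)) * hQc
  have hsum : Summable fun j =>
      ‖omega * (Q : ℂ) ^ 3 * conj (LSeries.term a ((2 : ℝ) : ℂ) j)‖ := by
    simpa [h.norm_omega] using (h.summable_all hd ((2 : ℝ) : ℂ)).norm.mul_left (|Q| ^ 3)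
  have hB := tendsto_bohr_mean hsum fun j => Real.log n - 2 * Real.log Q + Real.log j
  rw [tsum_congr (fun j => ?_), tsum_zero] at hB
  · have hmean := tendsto_mean_line (h.summable_all hd ((-1 : ℝ) : ℂ)) hn
    simp only [hL] at hmean
    have := tendsto_nhds_unique hmean hB
    rw [LSeries.term_of_ne_zero hn, div_eq_zero_iff] at this
    exact ha (this.resolve_right (cpow_ne_zero_iff.2 (Or.inl (Nat.cast_ne_zero.2 hn))))
  · rcases eq_or_ne j 0 with rfl | hj
    · simp
    split_ifs with he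
    · have hz : a j = 0 := by
        by_contra hz
        refine hno j hz (Real.log_injOn_pos (Set.mem_Ioi.2 (Nat.cast_pos.2 (Nat.pos_of_ne_zero
          (mul_ne_zero hn hj)))) (Set.mem_Ioi.2 (pow_pos hQ 2)) ?_)
        rw [Nat.cast_mul, Real.log_mul (Nat.cast_ne_zero.2 hn) (Nat.cast_ne_zero.2 hj),
          Real.log_pow]
        push_cast
        linarith
      simp [LSeries.term_of_ne_zero hj, hz]
    · rfl

end FA.DegreeGap

end
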