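import Fermat.Agent.DegreeGap.Entire
import Mathlib.Algebra.Group.ForwardDiff

/-!
# The periodic entire function

A finite difference of the entire combination is `∑ a n n^m exp (-n z)`, now entire with period
`2 π i`; Fourier's formula on a line far to the left bounds `a n` by every exponential.
-/

set_option autoImplicit false

noncomputable section

open Complex MeasureTheory Filter Set
open scoped Real Topology Interval

namespace FA.DegreeGap

variable {a : ℕ → ℂ} {m : ℕ} {E : ℂ → ℂ} {r : ℕ} {lam : Fin r → ℝ} {mu : Fin r → ℂ} {Q : ℝ}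
  {omega : ℂ}

theorem expSeries_add_period (a : ℕ → ℂ) (i l : ℕ) (z : ℂ) :
    expSeries a i (z + l * (2 * π * I)) = expSeries a i z := by
  refine tsum_congr fun n => ?_
  unfold expTerm
  split_ifs
  · rfl
  rw [show -((n : ℂ) * (z + l * (2 * π * I))) =
      -((n : ℂ) * z) + ((-((n * l : ℕ) : ℤ) : ℤ) : ℂ) * (2 * π * I) by push_cast; ring,
    Complex.exp_add, Complex.exp_int_mul_two_pi_mul_I, mul_one]

theorem sum_diff_weights (m i : ℕ) (hi : i ≤ m) (z τ : ℂ) (hτ : τ ≠ 0) :
    ∑ l ∈ Finset.range (m + 1), (((-1 : ℤ) ^ (m - l) * m.choose l : ℤ) : ℂ) * (z + l * τ) ^ i =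
      if i = m then τ ^ m * m.factorial else 0 := by
  have h := fwdDiff_iter_eq_sum_shift (h := (1 : ℂ)) (fun w : ℂ => w ^ i) m (z / τ)
  simp only [nsmul_eq_mul, mul_one, zsmul_eq_mul] at h
  have e : ∀ l : ℕ, (z + l * τ) ^ i = τ ^ i * (z / τ + l) ^ i := fun l => by
    rw [← mul_pow]
    congr 1
    field_simp
  simp only [e, mul_left_comm _ (τ ^ i), ← Finset.mul_sum]
  rw [← h]
  rcases eq_or_lt_of_le hi with rfl | hlt
  · rw [if_pos rfl, fwdDiff_iter_eq_factorial]
    rfl
  · rw [if_neg hlt.ne, fwdDiff_iter_pow_eq_zero_of_lt hlt, Pi.zero_apply, mul_zero]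

/-- The periodic function. -/
def periodicSeries (a : ℕ → ℂ) (m : ℕ) (z : ℂ) : ℂ :=
  (∑ l ∈ Finset.range (m + 1), (((-1 : ℤ) ^ (m - l) * m.choose l : ℤ) : ℂ) *
    weightedEntire a m (z + l * (2 * π * I))) / ((2 * π * I) ^ m * m.factorial)

theorem HasFunctionalEquation.differentiable_periodicSeries
    (h : HasFunctionalEquation a m E lam mu Q omega) (hd : degree lam < 1) :
    Differentiable ℂ (periodicSeries a m) :=
  (Differentiable.fun_sum fun _ _ =>
    ((h.differentiable_weightedEntire hd).comp (differentiable_id.add_const _)).const_mul _)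
      |>.div_const _

theorem HasFunctionalEquation.periodicSeries_eq
    (h : HasFunctionalEquation a m E lam mu Q omega) (hd : degree lam < 1) {z : ℂ}
    (hz : 0 < z.re) : periodicSeries a m z = expSeries a m z := by
  have hτ : (2 * π * I : ℂ) ≠ 0 := Complex.two_pi_I_ne_zero
  have hre : ∀ l : ℕ, 0 < (z + l * (2 * π * I)).re := fun l => by simpa using hz
  rw [periodicSeries, div_eq_iff (mul_ne_zero (pow_ne_zero _ hτ)
    (Nat.cast_ne_zero.2 m.factorial_ne_zero))]
  simp only [h.weightedEntire_eq hd (hre _), weightedSeries, expSeries_add_period, Finset.mul_sum]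
  generalize (2 * π * I : ℂ) = τ at hτ ⊢
  rw [Finset.sum_comm]
  rw [Finset.sum_eq_single m]
  · simp only [polyCoeff_self, one_mul, ← mul_assoc, ← Finset.sum_mul]
    rw [sum_diff_weights m m le_rfl z _ hτ, if_pos rfl]
    ring
  · intro i hi hne
    rw [Finset.mem_range] at hi
    have hw := sum_diff_weights m i (by omega) z _ hτ
    rw [if_neg hne] at hw
    calc _ = polyCoeff m i * expSeries a i z * ∑ l ∈ Finset.range (m + 1),
          (((-1 : ℤ) ^ (m - l) * m.choose l : ℤ) : ℂ) * (z + l * τ) ^ i := by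
          rw [Finset.mul_sum]
          exact Finset.sum_congr rfl fun l _ => by ring
      _ = 0 := by rw [hw, mul_zero]
  · intro hm
    exact absurd (Finset.mem_range.2 (Nat.lt_succ_self m)) hm

theorem HasFunctionalEquation.periodicSeries_periodic
    (h : HasFunctionalEquation a m E lam mu Q omega) (hd : degree lam < 1) (z : ℂ) :
    periodicSeries a m (z + 2 * π * I) = periodicSeries a m z := by
  have hH := h.differentiable_periodicSeries hd
  have hU : IsOpen {w : ℂ | 0 < w.re} := isOpen_lt continuous_const Complex.continuous_re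
  refine congrFun (AnalyticOnNhd.eq_of_eventuallyEq (𝕜 := ℂ) (z₀ := (1 : ℂ))
    (f := fun w => periodicSeries a m (w + 2 * π * I)) (g := periodicSeries a m)
    (fun w _ => (hH.comp (differentiable_id.add_const _)).analyticAt w)
    (fun w _ => hH.analyticAt w) ?_) z
  filter_upwards [hU.mem_nhds (show (1 : ℂ) ∈ {w : ℂ | 0 < w.re} by simp)] with w hw
  have hw' : 0 < w.re := hw
  rw [h.periodicSeries_eq hd (z := w + 2 * π * I) (by simpa using hw'),
    h.periodicSeries_eq hd hw']
  simpa using expSeries_add_period a m 1 w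

theorem integral_exp_I_eq_zero {l : ℤ} (hl : l ≠ 0) :
    ∫ y in (0 : ℝ)..(2 * π), cexp ((l : ℂ) * I * y) = 0 := by
  rw [integral_exp_mul_complex (mul_ne_zero (Int.cast_ne_zero.2 hl) I_ne_zero)]
  rw [show (l : ℂ) * I * ((2 * π : ℝ) : ℂ) = (l : ℂ) * (2 * π * I) by push_cast; ring,
    Complex.exp_int_mul_two_pi_mul_I]
  simp

/-- Fourier's integral at height `x`. -/
def fourierInt (a : ℕ → ℂ) (m n : ℕ) (x : ℝ) : ℂ :=
  ∫ y in (0 : ℝ)..(2 * π), periodicSeries a m (pt x y) * cexp (n * pt x y)

theorem HasFunctionalEquation.fourierInt_eq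
    (h : HasFunctionalEquation a m E lam mu Q omega) (hd : degree lam < 1) {n : ℕ} (hn : n ≠ 0)
    {x : ℝ} (hx : 0 < x) : fourierInt a m n x = 2 * π * (a n * (n : ℂ) ^ m) := by
  obtain ⟨u, hu, hle⟩ := exists_summable_majorant (h.summable 2 (by norm_num)) m hx
  have hF : HasSum (fun j => ∫ y in (0 : ℝ)..(2 * π), expTerm a m (pt x y) j * cexp (n * pt x y))
      (fourierInt a m n x) := by
    refine intervalIntegral.hasSum_integral_of_dominated_convergence
      (fun j _ => u j * Real.exp (n * x)) (fun j => ?_) (fun j => ?_)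
      (Eventually.of_forall fun _ _ => hu.mul_right _) intervalIntegrable_const
      (Eventually.of_forall fun y _ => ?_)
    · unfold expTerm
      refine Continuous.aestronglyMeasurable ?_
      split_ifs
      · exact continuous_const.mul ((continuous_const.mul (continuous_pt x)).cexp)
      · exact (continuous_const.mul ((continuous_const.mul (continuous_pt x)).neg.cexp)).mul
          ((continuous_const.mul (continuous_pt x)).cexp)
    · refine Eventually.of_forall fun y _ => ?_
      rw [norm_mul, Complex.norm_exp, show ((n : ℂ) * pt x y).re = n * x by simp [pt] ]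
      exact mul_le_mul_of_nonneg_right (hle j _ (by rw [pt_re])) (Real.exp_nonneg _)
    · rw [h.periodicSeries_eq hd (by rw [pt_re]; exact hx)]
      exact ((Summable.of_norm_bounded hu fun j => hle j _ (by rw [pt_re])).hasSum).mul_right _
  refine hF.unique ?_
  have hterm : ∀ j, (∫ y in (0 : ℝ)..(2 * π), expTerm a m (pt x y) j * cexp (n * pt x y)) =
      if j = n then 2 * π * (a n * (n : ℂ) ^ m) else 0 := by
    intro j
    rcases eq_or_ne j 0 with rfl | hj
    · simp [expTerm, hn.symm]
    have e : ∀ y : ℝ, expTerm a m (pt x y) j * cexp (n * pt x y) =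
        a j * (j : ℂ) ^ m * cexp (((n : ℂ) - j) * x) *
          cexp ((((n : ℤ) - j : ℤ) : ℂ) * I * y) := fun y => by
      rw [expTerm, if_neg hj, mul_assoc, ← Complex.exp_add, mul_assoc (a j * (j : ℂ) ^ m),
        ← Complex.exp_add]
      congr 2
      simp only [pt]
      push_cast
      ring
    simp only [e, intervalIntegral.integral_const_mul]
    split_ifs with hjn
    · subst hjn
      simp
      ring
    · rw [integral_exp_I_eq_zero (by omega), mul_zero]
  simp only [hterm]
  exact hasSum_ite_eq n _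

theorem HasFunctionalEquation.fourierInt_const
    (h : HasFunctionalEquation a m E lam mu Q omega) (hd : degree lam < 1) (n : ℕ) (x x' : ℝ) :
    fourierInt a m n x = fourierInt a m n x' := by
  set Φ : ℂ → ℂ := fun z => periodicSeries a m z * cexp (n * z)
  have hΦ : Differentiable ℂ Φ :=
    (h.differentiable_periodicSeries hd).mul ((differentiable_id.const_mul _).cexp)
  have hc := Complex.integral_boundary_rect_eq_zero_of_differentiableOn Φ (pt x 0)
    (pt x' (2 * π)) hΦ.differentiableOn
  have hper : ∀ u : ℝ, Φ ((u : ℂ) + ((2 * π : ℝ) : ℂ) * I) = Φ ((u : ℂ) + ((0 : ℝ) : ℂ) * I) :=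
    fun u => by
    simp only [Φ, ofReal_zero, zero_mul, add_zero]
    rw [show ((2 * π : ℝ) : ℂ) * I = 2 * π * I by push_cast; ring, h.periodicSeries_periodic hd,
      mul_add, Complex.exp_add, show (n : ℂ) * (2 * π * I) = ((n : ℤ) : ℂ) * (2 * π * I) by
        push_cast; ring, Complex.exp_int_mul_two_pi_mul_I, mul_one]
  simp only [pt_re, pt_im, hper, sub_self, zero_add, smul_eq_mul, sub_eq_zero] at hc
  have := mul_left_cancel₀ I_ne_zero hc
  simp only [fourierInt, pt]
  exact this.symm

/-- **The coefficients decay faster than every exponential.** -/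
theorem HasFunctionalEquation.exists_decay
    (h : HasFunctionalEquation a m E lam mu Q omega) (hd : degree lam < 1) (R : ℝ) :
    ∃ M : ℝ, ∀ n : ℕ, n ≠ 0 → ‖a n‖ ≤ M * Real.exp (-(R * n)) := by
  obtain ⟨M, hM⟩ := (isCompact_Icc (a := (0 : ℝ)) (b := 2 * π)).exists_bound_of_continuousOn
    ((h.differentiable_periodicSeries hd).continuous.comp (continuous_pt (-R))).continuousOn
  refine ⟨M, fun n hn => ?_⟩
  have h1 : ‖fourierInt a m n (-R)‖ ≤ M * Real.exp (-(R * n)) * |2 * π - 0| := by
    refine intervalIntegral.norm_integral_le_of_norm_le_const fun y hy => ?_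
    rw [uIoc_of_le (by positivity)] at hy
    rw [norm_mul, Complex.norm_exp, show ((n : ℂ) * pt (-R) y).re = -(R * n) by simp [pt]; ring]
    exact mul_le_mul_of_nonneg_right (hM y ⟨hy.1.le, hy.2⟩) (Real.exp_nonneg _)
  rw [h.fourierInt_const hd n (-R) 1, h.fourierInt_eq hd hn one_pos, norm_mul, norm_mul,
    norm_mul, norm_pow, Complex.norm_natCast, Complex.norm_ofNat, Complex.norm_real,
    Real.norm_of_nonneg Real.pi_pos.le, sub_zero,
    abs_of_pos (by positivity : (0 : ℝ) < 2 * π)] at h1
  have h2 : ‖a n‖ ≤ ‖a n‖ * (n : ℝ) ^ m := le_mul_of_one_le_right (norm_nonneg _)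
    (one_le_pow₀ (Nat.one_le_cast.2 (Nat.pos_of_ne_zero hn)))
  have h3 : ‖a n‖ * (n : ℝ) ^ m ≤ M * Real.exp (-(R * n)) :=
    le_of_mul_le_mul_left (by linarith) (by positivity : (0 : ℝ) < 2 * π)
  exact h2.trans h3

/-- **Bohr's mean.** -/
theorem tendsto_bohr_mean {c : ℕ → ℂ} (hc : Summable fun j => ‖c j‖) (θ : ℕ → ℝ) :
    Tendsto (fun T : ℝ => (T : ℂ)⁻¹ * ∫ t in (0 : ℝ)..T, ∑' j, c j * cexp ((θ j : ℂ) * I * t))
      atTop (𝓝 (∑' j, if θ j = 0 then c j else 0)) := by
  have hnorm : ∀ (j : ℕ) (t : ℝ), ‖cexp ((θ j : ℂ) * I * t)‖ = 1 := fun j t => by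
    rw [show (θ j : ℂ) * I * t = ((θ j * t : ℝ) : ℂ) * I by push_cast; ring,
      Complex.norm_exp_ofReal_mul_I]
  have hswap : ∀ T : ℝ, ∫ t in (0 : ℝ)..T, ∑' j, c j * cexp ((θ j : ℂ) * I * t) =
      ∑' j, c j * ∫ t in (0 : ℝ)..T, cexp ((θ j : ℂ) * I * t) := by
    intro T
    simp only [← intervalIntegral.integral_const_mul]
    refine (HasSum.tsum_eq ?_).symm
    refine intervalIntegral.hasSum_integral_of_dominated_convergence (fun j _ => ‖c j‖)
      (fun j => (by fun_prop : Continuous fun t : ℝ =>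
        c j * cexp ((θ j : ℂ) * I * t)).aestronglyMeasurable)
      (fun j => Eventually.of_forall fun t _ => by rw [norm_mul, hnorm, mul_one])
      (Eventually.of_forall fun _ _ => hc) intervalIntegrable_const
      (Eventually.of_forall fun t _ => ?_)
    exact (Summable.of_norm_bounded hc fun j => by rw [norm_mul, hnorm, mul_one]).hasSum
  simp only [hswap, ← tsum_mul_left]
  refine tendsto_tsum_of_dominated_convergence hc (fun j => ?_) ?_
  · rcases eq_or_ne (θ j) 0 with h0 | h0
    · rw [if_pos h0]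
      refine tendsto_const_nhds.congr' ?_
      filter_upwards [eventually_gt_atTop 0] with T hT
      have hT' : (T : ℂ) ≠ 0 := ofReal_ne_zero.2 hT.ne'
      simp [h0]
      field_simp
    · rw [if_neg h0]
      refine squeeze_zero_norm (a := fun T : ℝ => |T|⁻¹ * (‖c j‖ * (2 / |θ j|))) (fun T => ?_) ?_
      · have hne : (θ j : ℂ) * I ≠ 0 := mul_ne_zero (ofReal_ne_zero.2 h0) I_ne_zero
        rw [integral_exp_mul_complex hne, norm_mul, norm_mul, norm_inv, Complex.norm_real,
          Real.norm_eq_abs, norm_div, norm_mul, Complex.norm_I, mul_one, Complex.norm_real,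
          Real.norm_eq_abs]
        refine mul_le_mul_of_nonneg_left (mul_le_mul_of_nonneg_left
          (div_le_div_of_nonneg_right ?_ (abs_nonneg _)) (norm_nonneg _)) (by positivity)
        refine (norm_sub_le _ _).trans ?_
        rw [hnorm, hnorm]
        norm_num
      · simpa using (tendsto_inv_atTop_zero.comp tendsto_abs_atTop_atTop).mul_const
          (‖c j‖ * (2 / |θ j|))
  · filter_upwards [eventually_gt_atTop 0] with T hT j
    rw [norm_mul, norm_mul, norm_inv, Complex.norm_real, Real.norm_of_nonneg hT.le]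
    have hI : ‖∫ t in (0 : ℝ)..T, cexp ((θ j : ℂ) * I * t)‖ ≤ 1 * |T - 0| :=
      intervalIntegral.norm_integral_le_of_norm_le_const fun t _ => (hnorm j t).le
    rw [sub_zero, abs_of_pos hT, one_mul] at hI
    calc T⁻¹ * (‖c j‖ * ‖∫ t in (0 : ℝ)..T, cexp ((θ j : ℂ) * I * t)‖) ≤ T⁻¹ * (‖c j‖ * T) := by
          gcongr
      _ = ‖c j‖ := by field_simp

end FA.DegreeGap

end
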